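import Fermat.Agent.BezoutCurves.Basic
import Mathlib.FieldTheory.IsAlgClosed.Basic

/-!
# Elimination for two coprime plane polynomials

The ideal of two coprime polynomials of degrees at most `m` and `n` contains a nonzero polynomial
in either variable alone, of degree at most `m n`: a dimension count.
-/

set_option autoImplicit false
set_option linter.style.haveILetI false

noncomputable section

namespace FA.PlaneBertini

open MvPolynomial Module

variable {k : Type*} [Field k]

theorem totalDegree_aeval_X_le (i : Fin 2) (R : Polynomial k) :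
    (Polynomial.aeval (X i : MvPolynomial (Fin 2) k) R).totalDegree ≤ R.natDegree := by
  rw [Polynomial.aeval_eq_sum_range]
  refine (totalDegree_finsetSum _ _).trans (Finset.sup_le fun j hj => ?_)
  rw [smul_eq_C_mul]
  refine (totalDegree_mul _ _).trans ?_
  rw [totalDegree_C, totalDegree_X_pow, zero_add]
  exact Nat.lt_succ_iff.1 (Finset.mem_range.1 hj)

theorem aeval_X_injective (i : Fin 2) :
    Function.Injective (Polynomial.aeval (X i : MvPolynomial (Fin 2) k) :
      Polynomial k → MvPolynomial (Fin 2) k) := by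
  intro R R' h
  have h1 := congrArg (aeval fun _ : Fin 2 => (Polynomial.X : Polynomial k)) h
  simp only [← Polynomial.aeval_algHom_apply, aeval_X, Polynomial.aeval_X_left_apply] at h1
  exact h1

/-- **An eliminant.** -/
theorem exists_eliminant {f g : MvPolynomial (Fin 2) k} (hcop : IsRelPrime f g) (i : Fin 2)
    {m n : ℕ} (hm : f.totalDegree ≤ m) (hn : g.totalDegree ≤ n) :
    ∃ R : Polynomial k, R ≠ 0 ∧ R.natDegree ≤ m * n ∧
      ∃ a b, a * f + b * g = Polynomial.aeval (X i : MvPolynomial (Fin 2) k) R := by
  rcases eq_or_ne g 0 with rfl | hg0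
  · obtain ⟨u, hu⟩ := isRelPrime_zero_right.1 hcop
    exact ⟨1, one_ne_zero, by simp, ↑u⁻¹, 0, by rw [← hu, Units.inv_mul, map_one, zero_mul,
      add_zero]⟩
  suffices h : ∀ m n, f.totalDegree = m → g.totalDegree = n →
      ∃ R : Polynomial k, R ≠ 0 ∧ R.natDegree ≤ m * n ∧
        ∃ a b, a * f + b * g = Polynomial.aeval (X i : MvPolynomial (Fin 2) k) R by
    obtain ⟨R, hR, hdeg, hab⟩ := h _ _ rfl rfl
    exact ⟨R, hR, hdeg.trans (Nat.mul_le_mul hm hn), hab⟩
  intro m n hm hn
  set e := m * n
  let V : ℕ → Submodule k (MvPolynomial (Fin 2) k) := fun j => restrictTotalDegree (Fin 2) k j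
  have hmem : ∀ {j} {p : MvPolynomial (Fin 2) k}, p ∈ V j ↔ p.totalDegree ≤ j := fun {j p} =>
    mem_restrictTotalDegree _ _ _
  have hdim : ∀ j, finrank k (V j) = (j + 2).choose 2 := fun j => by
    rw [FA.FiniteKakeya.finrank_totalDegree_le, add_comm]
  haveI hfd : ∀ j, FiniteDimensional k (V j) := fun j =>
    FiniteDimensional.of_finrank_pos (by rw [hdim]; exact Nat.choose_pos (by omega))
  let Φ : V (e + n) × V (e + m) →ₗ[k] V (e + m + n) :=
    LinearMap.codRestrict _
      ((LinearMap.mulLeft k f ∘ₗ (V (e + n)).subtype).coprod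
        (LinearMap.mulLeft k g ∘ₗ (V (e + m)).subtype))
      fun ab => by
        refine Submodule.add_mem _ (hmem.2 ((totalDegree_mul _ _).trans ?_))
          (hmem.2 ((totalDegree_mul _ _).trans ?_))
        · have := hmem.1 ab.1.2
          simp only [Submodule.subtype_apply, LinearMap.fst_apply]
          omega
        · have := hmem.1 ab.2.2
          simp only [Submodule.subtype_apply, LinearMap.snd_apply]
          omega
  let Ψ : V e →ₗ[k] V (e + n) × V (e + m) :=
    (LinearMap.codRestrict _ (LinearMap.mulLeft k g ∘ₗ (V e).subtype) fun c => by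
        have := hmem.1 c.2
        exact hmem.2 ((totalDegree_mul _ _).trans (by simp only [Submodule.subtype_apply]; omega))
      ).prod
      (LinearMap.codRestrict _ (-(LinearMap.mulLeft k f ∘ₗ (V e).subtype)) fun c => by
        have := hmem.1 c.2
        refine Submodule.neg_mem _ (hmem.2 ((totalDegree_mul _ _).trans ?_))
        simp only [Submodule.subtype_apply]
        omega)
  have h1 : finrank k (LinearMap.ker Φ) ≤ (e + 2).choose 2 := by
    rw [← hdim e]
    refine (Submodule.finrank_mono ?_).trans (LinearMap.finrank_range_le Ψ)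
    rintro ⟨⟨a, ha⟩, ⟨b, hb⟩⟩ hab
    have h : f * a + g * b = 0 := congrArg Subtype.val (LinearMap.mem_ker.1 hab)
    obtain ⟨c, rfl⟩ : g ∣ a :=
      IsRelPrime.dvd_of_dvd_mul_left hcop.symm ⟨-b, by linear_combination h⟩
    have hb' : b = -(f * c) := mul_left_cancel₀ hg0 (by linear_combination h)
    have hc : c ∈ V e := hmem.2 <| by
      rcases eq_or_ne c 0 with rfl | hc0
      · simp
      · have := hmem.1 ha
        rw [totalDegree_mul_of_isDomain hg0 hc0] at this
        omega
    exact ⟨⟨c, hc⟩, Prod.ext (Subtype.ext rfl) (Subtype.ext hb'.symm)⟩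
  -- the powers of the variable
  let ι : Polynomial.degreeLT k (e + 1) →ₗ[k] V (e + m + n) :=
    LinearMap.codRestrict _
      ((Polynomial.aeval (X i : MvPolynomial (Fin 2) k)).toLinearMap ∘ₗ
        (Polynomial.degreeLT k (e + 1)).subtype)
      fun R => hmem.2 ((totalDegree_aeval_X_le i _).trans (by
        have := R.2
        rw [Polynomial.mem_degreeLT] at this
        have h2 : (R : Polynomial k).natDegree < e + 1 := by
          rcases eq_or_ne (R : Polynomial k) 0 with h0 | h0
          · rw [h0, Polynomial.natDegree_zero]; omega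
          · rwa [Polynomial.natDegree_lt_iff_degree_lt h0]
        simp only [Submodule.subtype_apply]
        omega))
  have hι : Function.Injective ι := fun R R' h =>
    Subtype.ext (aeval_X_injective i (congrArg Subtype.val h))
  have hιdim : finrank k (LinearMap.range ι) = e + 1 := by
    rw [LinearMap.finrank_range_of_inj hι, (Polynomial.degreeLTEquiv k (e + 1)).finrank_eq,
      finrank_fin_fun]
  have hne : LinearMap.range Φ ⊓ LinearMap.range ι ≠ ⊥ := fun h0 => by
    have h5 := LinearMap.finrank_range_add_finrank_ker Φ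
    rw [finrank_prod, hdim, hdim] at h5
    have h6 := Submodule.finrank_sup_add_finrank_inf_eq (LinearMap.range Φ) (LinearMap.range ι)
    rw [h0, finrank_bot, add_zero, hιdim] at h6
    have h7 := Submodule.finrank_le (LinearMap.range Φ ⊔ LinearMap.range ι)
    rw [hdim] at h7
    have h8 := FA.BezoutCurves.choose_two_identity e m n
    omega
  obtain ⟨x, hx, hx0⟩ := (Submodule.ne_bot_iff _).1 hne
  obtain ⟨⟨ab, rfl⟩, ⟨R, hR⟩⟩ := Submodule.mem_inf.1 hx
  have hval : (Polynomial.aeval (X i : MvPolynomial (Fin 2) k) (R : Polynomial k)) =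
      f * (ab.1 : MvPolynomial (Fin 2) k) + g * (ab.2 : MvPolynomial (Fin 2) k) :=
    congrArg Subtype.val hR
  refine ⟨R, fun h0 => hx0 ?_, ?_, ab.1, ab.2, by rw [hval]; ring⟩
  · rw [← hR, show R = 0 from Subtype.ext h0, map_zero]
  · have := R.2
    rw [Polynomial.mem_degreeLT] at this
    rcases eq_or_ne (R : Polynomial k) 0 with h0 | h0
    · rw [h0, Polynomial.natDegree_zero]; omega
    · have := (Polynomial.natDegree_lt_iff_degree_lt h0).2 this
      omega

/-- **Finitely many common zeros**, over every extension. -/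
theorem exists_finset_common_zeros (K : Type*) [Field K] [Algebra k K]
    {f g : MvPolynomial (Fin 2) k} (hcop : IsRelPrime f g) {m n : ℕ}
    (hm : f.totalDegree ≤ m) (hn : g.totalDegree ≤ n) :
    ∃ S : Finset (Fin 2 → K), S.card ≤ (m * n) ^ 2 ∧
      ∀ P : Fin 2 → K, aeval P f = 0 → aeval P g = 0 → P ∈ S := by
  classical
  choose R hR0 hRd a b hab using fun i => exists_eliminant hcop i hm hn
  refine ⟨Fintype.piFinset fun i => ((R i).aroots K).toFinset, ?_, fun P hf hg => ?_⟩
  · rw [Fintype.card_piFinset, Fin.prod_univ_two, pow_two]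
    have h : ∀ i, ((R i).aroots K).toFinset.card ≤ m * n := fun i =>
      ((Multiset.toFinset_card_le _).trans (Polynomial.card_roots' _)).trans
        ((Polynomial.natDegree_map_le).trans (hRd i))
    exact Nat.mul_le_mul (h 0) (h 1)
  · refine Fintype.mem_piFinset.2 fun i => Multiset.mem_toFinset.2 ?_
    rw [Polynomial.mem_aroots]
    refine ⟨hR0 i, ?_⟩
    have h := congrArg (aeval P) (hab i)
    rwa [map_add, map_mul, map_mul, hf, hg, mul_zero, mul_zero, add_zero,
      ← Polynomial.aeval_algHom_apply, aeval_X, eq_comm] at h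

end FA.PlaneBertini
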