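import Fermat.Agent.PlaneBertini.Proportion
import Mathlib.Analysis.Normed.Group.Tannery
import Mathlib.Analysis.SpecialFunctions.Log.Deriv
import Mathlib.Analysis.SpecificLimits.Basic

/-!
# The Euler product of the plane

`∏ (1 - q^{-3 deg P})` over the closed points tends to `1 - q^{-1}`: the logarithm is the series
`-∑ #(points of degree dividing n) q^{-3n} / n`. More generally, over a set stable under Frobenius
with `(q^n)^j` points over the extension of degree `n` the limit is `1 - q^{-(3-j)}`.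
-/

set_option autoImplicit false
set_option linter.style.openClassical false
set_option linter.style.haveILetI false
set_option linter.unusedSectionVars false

noncomputable section

open scoped Classical Nat Topology
open Filter

namespace FA.PlaneBertini

open MvPolynomial

variable {k : Type*} [Field k] [Fintype k]

variable (k) in
/-- One point in each orbit of the points of `S` over the extension of degree `m`. -/
def repSetOn (S : Pt k → Prop) (m : ℕ) : Finset (Pt k) := ((fixPts k m).filter S).image repPt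

variable (k) in
/-- One point in each orbit of the rational points over the extension of degree `m`. -/
def repSet (m : ℕ) : Finset (Pt k) := repSetOn k (fun _ => True) m

theorem repSetOn_inequivalent {S : Pt k → Prop} {m : ℕ} :
    ∀ P ∈ repSetOn k S m, ∀ Q ∈ repSetOn k S m, Q ∈ orbitPt k P → Q = P := by
  intro P hP Q hQ h
  obtain ⟨P', -, rfl⟩ := Finset.mem_image.mp hP
  obtain ⟨Q', -, rfl⟩ := Finset.mem_image.mp hQ
  have h1 := repPt_eq_of_mem h
  rwa [repPt_eq_of_mem (repPt_mem P'), repPt_eq_of_mem (repPt_mem Q')] at h1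

theorem repSet_inequivalent {m : ℕ} :
    ∀ P ∈ repSet k m, ∀ Q ∈ repSet k m, Q ∈ orbitPt k P → Q = P :=
  repSetOn_inequivalent

variable {S : Pt k → Prop}

theorem mem_repSetOn (hS : ∀ P Q, Q ∈ orbitPt k P → (S Q ↔ S P)) {m : ℕ} (hm : m ≠ 0) {P : Pt k}
    (h : P ∈ repSetOn k S m) : P ∈ fixPts k m ∧ S P := by
  obtain ⟨P', hP', rfl⟩ := Finset.mem_image.mp h
  obtain ⟨h1, h2⟩ := Finset.mem_filter.mp hP'
  rw [mem_fixPts_iff_dvd hm] at h1 ⊢
  exact ⟨by rwa [degPt_of_mem_orbitPt (repPt_mem P')], (hS _ _ (repPt_mem P')).mpr h2⟩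

theorem forall_repSetOn_iff (hS : ∀ P Q, Q ∈ orbitPt k P → (S Q ↔ S P)) {m : ℕ} (hm : m ≠ 0)
    (f : MvPolynomial (Fin 2) k) :
    (∀ P ∈ repSetOn k S m, ¬ SingularAt P f) ↔ ∀ P ∈ fixPts k m, S P → ¬ SingularAt P f := by
  constructor
  · intro h P hP hP' hs
    exact h _ (Finset.mem_image_of_mem _ (Finset.mem_filter.mpr ⟨hP, hP'⟩))
      ((singularAt_repPt_iff P f).mpr hs)
  · intro h P hP
    obtain ⟨h1, h2⟩ := mem_repSetOn hS hm hP
    exact h P h1 h2

theorem forall_repSet_iff {m : ℕ} (hm : m ≠ 0) (f : MvPolynomial (Fin 2) k) :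
    (∀ P ∈ repSet k m, ¬ SingularAt P f) ↔ ∀ P ∈ fixPts k m, ¬ SingularAt P f :=
  (forall_repSetOn_iff (fun _ _ _ => Iff.rfl) hm f).trans
    (forall₂_congr fun _ _ => forall_const _)

theorem sum_repSetOn (hS : ∀ P Q, Q ∈ orbitPt k P → (S Q ↔ S P)) {m : ℕ} (hm : m ≠ 0)
    (F : ℕ → ℝ) : ∑ R ∈ repSetOn k S m, F (degPt k R) =
      ∑ P ∈ (fixPts k m).filter S, F (degPt k P) / degPt k P := by
  rw [← Finset.sum_fiberwise_of_maps_to (g := repPt) (t := repSetOn k S m)
    fun P hP => Finset.mem_image_of_mem _ hP]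
  refine Finset.sum_congr rfl fun R hR => ?_
  have hfib : ((fixPts k m).filter S).filter (fun P => repPt P = R) = orbitPt k R := by
    obtain ⟨R', hR', rfl⟩ := Finset.mem_image.mp hR
    obtain ⟨hR1, hR2⟩ := Finset.mem_filter.mp hR'
    ext P
    rw [Finset.mem_filter, Finset.mem_filter]
    constructor
    · rintro ⟨-, hP⟩
      rw [← hP, orbitPt_eq_of_mem (repPt_mem P)]
      exact self_mem_orbitPt P
    · intro hP
      have hP' : repPt P = repPt R' := by
        rw [repPt_eq_of_mem hP, repPt_eq_of_mem (repPt_mem R')]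
      refine ⟨⟨?_, (hS _ _ hP).mpr ((hS _ _ (repPt_mem R')).mpr hR2)⟩, hP'⟩
      rw [mem_fixPts_iff_dvd hm, degPt_of_mem_orbitPt hP, degPt_of_mem_orbitPt (repPt_mem R'),
        ← mem_fixPts_iff_dvd hm]
      exact hR1
  rw [hfib, Finset.sum_congr rfl fun P hP =>
      (by rw [degPt_of_mem_orbitPt hP] : F (degPt k P) / degPt k P = F (degPt k R) / degPt k R),
    Finset.sum_const, card_orbitPt, nsmul_eq_mul, mul_div_cancel₀]
  exact_mod_cast (degPt_pos R).ne'

theorem hasSum_pow_div {x : ℝ} (hx : |x| < 1) :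
    HasSum (fun n : ℕ => x ^ n / n) (-Real.log (1 - x)) := by
  have h := Real.hasSum_pow_div_log_of_abs_lt_one hx
  rw [← hasSum_nat_add_iff' 1]
  simpa using h

theorem hasSum_dvd_pow_div {x : ℝ} (hx0 : 0 ≤ x) (hx : x < 1) {e : ℕ} (he : 0 < e) :
    HasSum (fun n : ℕ => if e ∣ n then x ^ n / n else 0) (-(Real.log (1 - x ^ e) / e)) := by
  have h := (hasSum_pow_div (x := x ^ e)
    (by rw [abs_of_nonneg (pow_nonneg hx0 e)]; exact pow_lt_one₀ hx0 hx he.ne')).div_const (e : ℝ)
  rw [neg_div] at h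
  have hinj : Function.Injective fun j : ℕ => e * j := fun a b hab =>
    Nat.eq_of_mul_eq_mul_left he hab
  refine (hinj.hasSum_iff fun n hn => if_neg fun ⟨j, hj⟩ => hn ⟨j, hj.symm⟩).mp ?_
  refine h.congr_fun fun j => ?_
  simp only [Function.comp_apply, dvd_mul_right, if_true, ← pow_mul, Nat.cast_mul]
  rw [div_div, mul_comm (j : ℝ)]

variable (k) in
/-- The product over the closed points in `S` of degree dividing `m`. -/
def eulerProdOn (S : Pt k → Prop) (m : ℕ) : ℝ :=
  ∏ R ∈ repSetOn k S m, (1 - ((Fintype.card k : ℝ) ^ (3 * degPt k R))⁻¹)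

variable (k) in
/-- The product over the closed points of degree dividing `m`. -/
def eulerProd (m : ℕ) : ℝ := eulerProdOn k (fun _ => True) m

variable (k) in
/-- The terms of the logarithm. -/
def eulerTerm (S : Pt k → Prop) (m n : ℕ) : ℝ :=
  (((fixPts k m).filter S).filter fun P => degPt k P ∣ n).card *
    ((((Fintype.card k : ℝ) ^ 3)⁻¹) ^ n / n)

theorem abs_eulerTerm_le {j : ℕ} (hj : j ≤ 2)
    (hc : ∀ n, n ≠ 0 → ((fixPts k n).filter S).card = (Fintype.card k ^ n) ^ j) (m n : ℕ) :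
    |eulerTerm k S m n| ≤ ((Fintype.card k : ℝ)⁻¹) ^ n := by
  set q : ℝ := (Fintype.card k : ℝ) with hqdef
  have hq : 1 < q := by rw [hqdef]; exact_mod_cast Fintype.one_lt_card
  rcases Nat.eq_zero_or_pos n with rfl | hn
  · simp [eulerTerm]
  have hle : ((((fixPts k m).filter S).filter fun P => degPt k P ∣ n).card : ℝ) ≤ (q ^ n) ^ 2 := by
    have h : (((fixPts k m).filter S).filter fun P => degPt k P ∣ n) ⊆ (fixPts k n).filter S :=
      fun P hP => Finset.mem_filter.mpr ⟨(mem_fixPts_iff_dvd hn.ne').mpr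
        (Finset.mem_filter.mp hP).2, (Finset.mem_filter.mp (Finset.mem_filter.mp hP).1).2⟩
    refine le_trans ?_ (pow_le_pow_right₀ (one_le_pow₀ hq.le) hj)
    rw [hqdef]
    exact_mod_cast (Finset.card_le_card h).trans_eq (hc n hn.ne')
  rw [eulerTerm, abs_of_nonneg (by positivity)]
  calc ((((fixPts k m).filter S).filter fun P => degPt k P ∣ n).card : ℝ) * (((q ^ 3)⁻¹) ^ n / n)
      ≤ (q ^ n) ^ 2 * (((q ^ 3)⁻¹) ^ n / 1) :=
        mul_le_mul hle (div_le_div_of_nonneg_left (by positivity) one_pos (by exact_mod_cast hn))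
          (by positivity) (by positivity)
    _ = q⁻¹ ^ n := by
        rw [div_one, inv_pow, inv_pow, ← pow_mul, ← pow_mul]
        field_simp
        ring

theorem log_eulerProdOn (hS : ∀ P Q, Q ∈ orbitPt k P → (S Q ↔ S P)) {m : ℕ} (hm : m ≠ 0) :
    Real.log (eulerProdOn k S m) = -∑' n, eulerTerm k S m n := by
  set q : ℝ := (Fintype.card k : ℝ)
  have hq : 1 < q := by simp only [q]; exact_mod_cast Fintype.one_lt_card
  set x : ℝ := (q ^ 3)⁻¹
  have hx0 : 0 ≤ x := by positivity
  have hx : x < 1 := inv_lt_one_of_one_lt₀ (one_lt_pow₀ hq (by norm_num))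
  have hpos : ∀ R : Pt k, (0 : ℝ) < 1 - x ^ degPt k R := fun R =>
    sub_pos.mpr (pow_lt_one₀ hx0 hx (degPt_pos R).ne')
  have he : eulerProdOn k S m = ∏ R ∈ repSetOn k S m, (1 - x ^ degPt k R) :=
    Finset.prod_congr rfl fun R _ => by rw [pow_mul, ← inv_pow]
  rw [he, Real.log_prod fun R _ => (hpos R).ne',
    sum_repSetOn hS hm fun e => Real.log (1 - x ^ e)]
  have h := hasSum_sum fun P (_ : P ∈ (fixPts k m).filter S) =>
    hasSum_dvd_pow_div hx0 hx (degPt_pos P)
  rw [Finset.sum_neg_distrib] at h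
  have hterm : (fun n => ∑ P ∈ (fixPts k m).filter S, if degPt k P ∣ n then x ^ n / n else 0) =
      eulerTerm k S m := funext fun n => by
    rw [← Finset.sum_filter, Finset.sum_const, nsmul_eq_mul]
    rfl
  rw [hterm] at h
  rw [h.tsum_eq, neg_neg]

theorem eulerTerm_eq {j : ℕ} (hj : j ≤ 2)
    (hc : ∀ n, n ≠ 0 → ((fixPts k n).filter S).card = (Fintype.card k ^ n) ^ j) {m n : ℕ}
    (hm : m ≠ 0) (hn : n ≠ 0) (hdvd : n ∣ m) :
    eulerTerm k S m n = (((Fintype.card k : ℝ) ^ (3 - j))⁻¹) ^ n / n := by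
  have h : (((fixPts k m).filter S).filter fun P => degPt k P ∣ n) = (fixPts k n).filter S := by
    ext P
    simp only [Finset.mem_filter, mem_fixPts_iff_dvd hn, mem_fixPts_iff_dvd hm]
    exact ⟨fun h => ⟨h.2, h.1.2⟩, fun h => ⟨⟨h.1.trans hdvd, h.2⟩, h.1⟩⟩
  have hq : (Fintype.card k : ℝ) ≠ 0 := by exact_mod_cast Fintype.card_ne_zero
  rw [eulerTerm, h, hc n hn]
  push_cast
  obtain ⟨i, hi⟩ : ∃ i, 3 = j + i := ⟨3 - j, by omega⟩
  rw [hi, Nat.add_sub_cancel_left, inv_pow, inv_pow, ← pow_mul, ← pow_mul, ← pow_mul, add_mul,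
    pow_add]
  field_simp
  ring

/-- **The product over the closed points of a stable set.** -/
theorem tendsto_eulerProdOn (hS : ∀ P Q, Q ∈ orbitPt k P → (S Q ↔ S P)) {j : ℕ} (hj : j ≤ 2)
    (hc : ∀ n, n ≠ 0 → ((fixPts k n).filter S).card = (Fintype.card k ^ n) ^ j) :
    Tendsto (fun r => eulerProdOn k S (r !)) atTop
      (𝓝 (1 - ((Fintype.card k : ℝ) ^ (3 - j))⁻¹)) := by
  have hq : (1 : ℝ) < Fintype.card k := by exact_mod_cast Fintype.one_lt_card
  set y : ℝ := ((Fintype.card k : ℝ) ^ (3 - j))⁻¹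
  have hy0 : 0 ≤ y := by positivity
  have hy : y < 1 := inv_lt_one_of_one_lt₀ (one_lt_pow₀ hq (by omega))
  have hT : Tendsto (fun r => ∑' n, eulerTerm k S (r !) n) atTop (𝓝 (∑' n : ℕ, y ^ n / n)) := by
    refine tendsto_tsum_of_dominated_convergence
      (summable_geometric_of_lt_one (inv_nonneg.mpr (by linarith)) (inv_lt_one_of_one_lt₀ hq))
      (fun n => ?_)
      (Eventually.of_forall fun r n => by rw [Real.norm_eq_abs]; exact abs_eulerTerm_le hj hc _ _)
    refine tendsto_const_nhds.congr' ?_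
    filter_upwards [eventually_ge_atTop n] with r hr
    rcases Nat.eq_zero_or_pos n with rfl | hn
    · simp [eulerTerm]
    · exact (eulerTerm_eq hj hc r.factorial_ne_zero hn.ne' (Nat.dvd_factorial hn hr)).symm
  rw [(hasSum_pow_div (by rwa [abs_of_nonneg hy0])).tsum_eq] at hT
  have hpos : ∀ r, 0 < eulerProdOn k S (r !) := fun r => Finset.prod_pos fun R _ =>
    sub_pos.mpr (inv_lt_one_of_one_lt₀
      (one_lt_pow₀ hq (Nat.mul_ne_zero (by norm_num) (degPt_pos R).ne')))
  have h2 := hT.neg.rexp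
  rw [neg_neg, Real.exp_log (sub_pos.mpr hy)] at h2
  refine h2.congr fun r => ?_
  rw [← log_eulerProdOn hS r.factorial_ne_zero, Real.exp_log (hpos r)]

/-- **The product over all closed points.** -/
theorem tendsto_eulerProd :
    Tendsto (fun r => eulerProd k (r !)) atTop (𝓝 (1 - (Fintype.card k : ℝ)⁻¹)) := by
  have h := tendsto_eulerProdOn (k := k) (S := fun _ => True) (fun _ _ _ => Iff.rfl) le_rfl
    fun n hn => by rw [Finset.filter_true, card_fixPts hn]
  simpa [eulerProd] using h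

end FA.PlaneBertini
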