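import Fermat.Agent.PlaneBertini.Proportion
import Mathlib.Algebra.CharP.Frobenius
import Mathlib.RingTheory.Polynomial.UniqueFactorization

/-!
# Singular points of high degree

With `f = f₀ + g₁^p x + g₂^p y + h^p` the two partial derivatives see `g₁` and `g₂` separately and
not `h`: almost always they are coprime, and then few `h` put a common zero of high degree on the
curve.
-/

set_option autoImplicit false
set_option linter.style.openClassical false
set_option linter.style.haveILetI false
set_option linter.unusedSectionVars false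

noncomputable section

open scoped Classical

namespace FA.PlaneBertini

open MvPolynomial

variable {k : Type*} [Field k] [Fintype k]

/-- Slices bound the whole. -/
theorem natCard_slices {D A B : Type*} [Finite A] [Finite B] (e : D ≃ A × B) (s : D → Prop)
    {C X : ℕ} (h : ∀ a, Nat.card {b // s (e.symm (a, b))} * X ≤ C * Nat.card B) :
    Nat.card {x : D // s x} * X ≤ C * Nat.card D := by
  haveI := Fintype.ofFinite A
  rw [Nat.card_congr (e.subtypeEquiv (q := fun y => s (e.symm (y.1, y.2))) fun x => by simp),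
    Nat.card_congr (Equiv.subtypeProdEquivSigmaSubtype fun a b => s (e.symm (a, b))),
    Nat.card_sigma, Finset.sum_mul, Nat.card_congr e, Nat.card_prod,
    Nat.card_eq_fintype_card (α := A)]
  refine (Finset.sum_le_sum fun a _ => h a).trans (le_of_eq ?_)
  rw [Finset.sum_const, Finset.card_univ, smul_eq_mul, mul_left_comm]

/-- A set with all differences in the kernel of a map. -/
theorem natCard_coset {W V : Type*} [AddCommGroup W] [Module k W] [Finite W] [AddCommGroup V]
    [Module k V] (L : W →ₗ[k] V) (s : W → Prop) (h : ∀ v w, s v → s w → L (v - w) = 0) {N : ℕ}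
    (hN : N ≤ Module.finrank k (LinearMap.range L)) :
    Nat.card {w // s w} * Fintype.card k ^ N ≤ Nat.card W := by
  haveI : Module.Finite k W := Module.Finite.of_finite
  rcases isEmpty_or_nonempty {w // s w} with he | ⟨⟨w0, hw0⟩⟩
  · simp
  have h1 : Nat.card {w // s w} ≤ Nat.card (LinearMap.ker L) :=
    Nat.card_le_card_of_injective (fun w => ⟨w.1 - w0, LinearMap.mem_ker.mpr (h _ _ w.2 hw0)⟩)
      fun v w e => Subtype.ext (sub_left_injective (congrArg Subtype.val e))
  refine (Nat.mul_le_mul h1 (Nat.pow_le_pow_right Fintype.card_pos hN)).trans (le_of_eq ?_)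
  haveI := Fintype.ofFinite W
  haveI := Fintype.ofFinite (LinearMap.ker L)
  rw [Nat.card_eq_fintype_card, Nat.card_eq_fintype_card, Module.card_eq_pow_finrank (K := k),
    Module.card_eq_pow_finrank (K := k) (V := W), ← pow_add,
    ← LinearMap.finrank_range_add_finrank_ker L, add_comm]

/-- A non-unit has a variable in which it divides no nonzero univariate polynomial. -/
theorem exists_coord {Q : MvPolynomial (Fin 2) k} (hQ : ¬ IsUnit Q) :
    ∃ i : Fin 2, ∀ R : Polynomial k,
      Q ∣ Polynomial.aeval (X i : MvPolynomial (Fin 2) k) R → R = 0 := by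
  have hdeg : ∀ (i j : Fin 2) (R : Polynomial k), j ≠ i →
      degreeOf j (Polynomial.aeval (X i : MvPolynomial (Fin 2) k) R) = 0 := fun i j R hji => by
    rw [Polynomial.aeval_eq_sum_range]
    refine Nat.le_zero.mp ((degreeOf_sum_le _ _ _).trans (Finset.sup_le fun l _ => ?_))
    rw [smul_eq_C_mul]
    refine (degreeOf_C_mul_le _ _ _).trans ?_
    rcases eq_or_ne l 0 with rfl | hl
    · simp
    · rw [degreeOf_pow_eq _ _ _ (X_ne_zero i), degreeOf_X, if_neg hji, mul_zero]
  by_contra! hall
  obtain ⟨R0, hd0, hR0⟩ := hall 0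
  obtain ⟨R1, hd1, hR1⟩ := hall 1
  have hne : ∀ (i : Fin 2) (R : Polynomial k), R ≠ 0 →
      Polynomial.aeval (X i : MvPolynomial (Fin 2) k) R ≠ 0 := fun i R hR h0 =>
    hR (aeval_X_injective i (h0.trans (map_zero _).symm))
  have hQ0 : Q ≠ 0 := fun h => hne 0 R0 hR0 (zero_dvd_iff.mp (h ▸ hd0))
  have key : ∀ (i j : Fin 2) (R : Polynomial k), j ≠ i → R ≠ 0 →
      Q ∣ Polynomial.aeval (X i : MvPolynomial (Fin 2) k) R → degreeOf j Q = 0 := by
    intro i j R hji hR hd
    obtain ⟨M, hM⟩ := hd
    have h1 := hdeg i j R hji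
    have hM0 : M ≠ 0 := right_ne_zero_of_mul (hM ▸ hne i R hR)
    rw [hM, degreeOf_mul_eq hQ0 hM0] at h1
    omega
  have h0 : Q.totalDegree = 0 := by
    refine (totalDegree_eq_zero_iff _ _).mpr fun s hs i => ?_
    have h := monomial_le_degreeOf i hs
    fin_cases i
    · exact Nat.le_zero.mp (h.trans (key 1 0 R1 (by decide) hR1 hd1).le)
    · exact Nat.le_zero.mp (h.trans (key 0 1 R0 (by decide) hR0 hd0).le)
  refine hQ (isUnit_iff_totalDegree_of_isReduced.mpr ⟨Ne.isUnit fun hc => hQ0 ?_, h0⟩)
  rw [totalDegree_eq_zero_iff_eq_C.mp h0, hc, map_zero]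

theorem card_factors_le {F : MvPolynomial (Fin 2) k} (hF : F ≠ 0) :
    (UniqueFactorizationMonoid.factors F).card ≤ F.totalDegree := by
  obtain ⟨u, hu⟩ := UniqueFactorizationMonoid.factors_prod hF
  have hirr := fun Q (hQ : Q ∈ UniqueFactorizationMonoid.factors F) =>
    UniqueFactorizationMonoid.irreducible_of_factor Q hQ
  have key : ∀ s : Multiset (MvPolynomial (Fin 2) k), (∀ Q ∈ s, Irreducible Q) →
      s.card ≤ s.prod.totalDegree := by
    intro s
    induction s using Multiset.induction_on with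
    | empty => simp
    | cons Q s ih =>
      intro hs
      have hQ := hs Q (Multiset.mem_cons_self _ _)
      have hs' := fun R (hR : R ∈ s) => hs R (Multiset.mem_cons_of_mem hR)
      have hprod : s.prod ≠ 0 := Multiset.prod_ne_zero fun h0 => (hs' 0 h0).ne_zero rfl
      rw [Multiset.card_cons, Multiset.prod_cons, totalDegree_mul_of_isDomain hQ.ne_zero hprod]
      have h1 : Q.totalDegree ≠ 0 := fun h0 => hQ.not_isUnit
        (isUnit_iff_totalDegree_of_isReduced.mpr ⟨Ne.isUnit fun hc => hQ.ne_zero (by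
          rw [totalDegree_eq_zero_iff_eq_C.mp h0, hc, map_zero]), h0⟩)
      have := ih hs'
      omega
  refine (key _ hirr).trans (totalDegree_le_of_dvd_of_isDomain ?_ hF)
  exact ⟨u, hu.symm⟩

theorem totalDegree_pderiv_le (i : Fin 2) (g : MvPolynomial (Fin 2) k) :
    (pderiv i g).totalDegree ≤ g.totalDegree := by
  refine Finset.sup_le fun m hm => ?_
  rw [mem_support_iff, coeff_pderiv] at hm
  have := le_totalDegree (mem_support_iff.2 (left_ne_zero_of_mul hm))
  rw [Finsupp.sum_add_index' (fun _ => rfl) fun _ _ _ => rfl, Finsupp.sum_single_index rfl] at this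
  exact le_trans (Nat.le_add_right _ _) this

variable (k) in
/-- The data of the decomposition. -/
abbrev Data (d γ : ℕ) : Type _ := (Poly k d × Poly k γ × Poly k γ) × Poly k γ

section

variable {p : ℕ} [Fact p.Prime] [CharP k p] {d γ : ℕ}

/-- `f₀ + g₁^p x + g₂^p y + h^p`. -/
def combine (p : ℕ) (x : Data k d γ) : MvPolynomial (Fin 2) k :=
  x.1.1.1 + x.1.2.1.1 ^ p * X 0 + x.1.2.2.1 ^ p * X 1 + x.2.1 ^ p

theorem pderiv_pow_char (i : Fin 2) (g : MvPolynomial (Fin 2) k) : pderiv i (g ^ p) = 0 := by
  rw [pderiv_pow, CharP.cast_eq_zero, zero_mul, zero_mul]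

theorem pderiv_zero_combine (x : Data k d γ) :
    pderiv 0 (combine p x) = pderiv 0 x.1.1.1 + x.1.2.1.1 ^ p := by
  simp [combine]

theorem pderiv_one_combine (x : Data k d γ) :
    pderiv 1 (combine p x) = pderiv 1 x.1.1.1 + x.1.2.2.1 ^ p := by
  simp [combine]

theorem totalDegree_combine_le (hγ : p * γ + 1 ≤ d) (x : Data k d γ) :
    (combine p x).totalDegree ≤ d := by
  have h : ∀ g : Poly k γ, (g.1 ^ p).totalDegree ≤ p * γ := fun g =>
    (totalDegree_pow _ _).trans (Nat.mul_le_mul_left p ((mem_restrictTotalDegree _ _ _).mp g.2))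
  refine (totalDegree_add _ _).trans (max_le ((totalDegree_add _ _).trans (max_le
    ((totalDegree_add _ _).trans (max_le ((mem_restrictTotalDegree _ _ _).mp x.1.1.2) ?_)) ?_))
    ((h _).trans (by omega)))
  · exact (totalDegree_mul _ _).trans (le_trans (Nat.add_le_add (h _) (totalDegree_X _).le) hγ)
  · exact (totalDegree_mul _ _).trans (le_trans (Nat.add_le_add (h _) (totalDegree_X _).le) hγ)

theorem totalDegree_pderiv_combine_le (hγ : p * γ + 1 ≤ d) (i : Fin 2) (x : Data k d γ) :
    (pderiv i (combine p x)).totalDegree ≤ d :=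
  (totalDegree_pderiv_le i _).trans (totalDegree_combine_le hγ x)

/-- **Transfer to the decomposition.** -/
theorem proportion_eq_combine (hγ : p * γ + 1 ≤ d) (s : MvPolynomial (Fin 2) k → Prop) :
    proportion d s =
      (Nat.card {x : Data k d γ // s (combine p x)} : ℝ) / Nat.card (Data k d γ) := by
  haveI : ExpChar (MvPolynomial (Fin 2) k) p := ExpChar.prime (Fact.out : p.Prime)
  let φ : Data k d γ → Poly k d := fun x =>
    ⟨combine p x, (mem_restrictTotalDegree _ _ _).mpr (totalDegree_combine_le hγ x)⟩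
  let rest : Poly k γ × Poly k γ × Poly k γ → Poly k d := fun y => φ ((0, y.1, y.2.1), y.2.2)
  have hsplit : ∀ x : Data k d γ, φ x = x.1.1 + rest (x.1.2.1, x.1.2.2, x.2) := fun x =>
    Subtype.ext (by simp [φ, rest, combine, add_assoc])
  let e : Data k d γ ≃ Poly k d × (Poly k γ × Poly k γ × Poly k γ) :=
    { toFun := fun x => (φ x, x.1.2.1, x.1.2.2, x.2)
      invFun := fun y => ((y.1 - rest y.2, y.2.1, y.2.2.1), y.2.2.2)
      left_inv := fun x => by simp [hsplit]
      right_inv := fun y => Prod.ext (by simp [hsplit]) rfl }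
  have h1 : Nat.card {x : Data k d γ // s (combine p x)} =
      Nat.card {f : Poly k d // s f.1} * Nat.card (Poly k γ × Poly k γ × Poly k γ) := by
    rw [← Nat.card_prod]
    refine Nat.card_congr ((e.subtypeEquiv (q := fun y => s y.1.1) fun x => Iff.rfl).trans ?_)
    exact
      { toFun := fun x => (⟨x.1.1, x.2⟩, x.1.2)
        invFun := fun x => ⟨(x.1.1, x.2), x.1.2⟩
        left_inv := fun x => rfl
        right_inv := fun x => rfl }
  rw [proportion, h1, Nat.card_congr e, Nat.card_prod (Poly k d), Nat.cast_mul, Nat.cast_mul,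
    mul_div_mul_right]
  exact_mod_cast Nat.card_pos.ne'

theorem eq_of_pow_char_eq {R : Type*} [CommRing R] [IsReduced R] [CharP R p] {a b : R}
    (h : a ^ p = b ^ p) : a = b := by
  haveI : ExpChar R p := ExpChar.prime (Fact.out : p.Prime)
  exact frobenius_inj R p (by simpa [frobenius_def] using h)

/-- The evaluation of the polynomials of degree at most `γ`. -/
def evalPoly (P : Pt k) (γ : ℕ) : Poly k γ →ₗ[k] AlgebraicClosure k :=
  (aeval P : MvPolynomial (Fin 2) k →ₐ[k] AlgebraicClosure k).toLinearMap ∘ₗ Submodule.subtype _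

theorem range_evalPoly (P : Pt k) (γ : ℕ) : LinearMap.range (evalPoly P γ) = valueSpan P γ := by
  rw [evalPoly, LinearMap.range_comp, Submodule.range_subtype]
  rfl

variable {N : ℕ}

/-- The first derivative vanishes identically. -/
theorem card_first_zero (hN : N ≤ γ + 1) :
    Nat.card {x : Data k d γ // pderiv 0 (combine p x) = 0} * Fintype.card k ^ N ≤
      1 * Nat.card (Data k d γ) := by
  let e : Data k d γ ≃ (Poly k d × Poly k γ × Poly k γ) × Poly k γ :=
    { toFun := fun x => ((x.1.1, x.1.2.2, x.2), x.1.2.1)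
      invFun := fun y => ((y.1.1, y.2, y.1.2.1), y.1.2.2)
      left_inv := fun x => rfl
      right_inv := fun x => rfl }
  refine natCard_slices e _ fun a => ?_
  simp only [e, Equiv.coe_fn_symm_mk, pderiv_zero_combine]
  rw [one_mul]
  have hsub : Subsingleton {g : Poly k γ // pderiv 0 a.1.1 + g.1 ^ p = 0} :=
    ⟨fun g g' => Subtype.ext (Subtype.ext (eq_of_pow_char_eq
      (add_left_cancel (g.2.trans g'.2.symm))))⟩
  refine (Nat.mul_le_mul_right _ (Finite.card_le_one_iff_subsingleton.mpr hsub)).trans ?_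
  rw [one_mul]
  haveI := Fintype.ofFinite (Poly k γ)
  rw [Nat.card_eq_fintype_card, Module.card_eq_pow_finrank (K := k) (V := Poly k γ)]
  refine Nat.pow_le_pow_right Fintype.card_pos ?_
  rw [FA.FiniteKakeya.finrank_totalDegree_le, add_comm 2 γ, Nat.choose_succ_succ (γ + 1) 1,
    Nat.choose_one_right]
  omega

/-- The derivatives have a common factor. -/
theorem card_common_factor (hγ : p * γ + 1 ≤ d) (hN : N ≤ γ + 1) :
    Nat.card {x : Data k d γ // pderiv 0 (combine p x) ≠ 0 ∧
      ¬ IsRelPrime (pderiv 0 (combine p x)) (pderiv 1 (combine p x))} * Fintype.card k ^ N ≤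
      d * Nat.card (Data k d γ) := by
  let e : Data k d γ ≃ (Poly k d × Poly k γ × Poly k γ) × Poly k γ :=
    { toFun := fun x => ((x.1.1, x.1.2.1, x.2), x.1.2.2)
      invFun := fun y => ((y.1.1, y.1.2.1, y.2), y.1.2.2)
      left_inv := fun x => rfl
      right_inv := fun x => rfl }
  refine natCard_slices e _ fun a => ?_
  simp only [e, Equiv.coe_fn_symm_mk, pderiv_zero_combine, pderiv_one_combine]
  set F := pderiv 0 a.1.1 + a.2.1.1 ^ p with hFdef
  set G := pderiv 1 a.1.1
  by_cases hF : F = 0
  · simp [hF]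
  have hFd : F.totalDegree ≤ d := by
    have h := totalDegree_pderiv_combine_le hγ 0 (((a.1, a.2.1, 0), 0) : Data k d γ)
    rwa [pderiv_zero_combine] at h
  set T := (UniqueFactorizationMonoid.factors F).toFinset
  have hsub : ∀ g : {g : Poly k γ // F ≠ 0 ∧ ¬ IsRelPrime F (G + g.1 ^ p)},
      ∃ Q : T, Q.1 ∣ G + g.1.1 ^ p := fun g => by
    obtain ⟨c, hc1, hc2, hcu⟩ : ∃ c, c ∣ F ∧ c ∣ G + g.1.1 ^ p ∧ ¬ IsUnit c := by
      simpa [IsRelPrime] using g.2.2
    obtain ⟨P, hP, hPc⟩ := WfDvdMonoid.exists_irreducible_factor hcu (ne_zero_of_dvd_ne_zero hF hc1)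
    obtain ⟨Q, hQ, hPQ⟩ :=
      UniqueFactorizationMonoid.exists_mem_factors_of_dvd hF hP (hPc.trans hc1)
    exact ⟨⟨Q, Multiset.mem_toFinset.mpr hQ⟩, hPQ.symm.dvd.trans (hPc.trans hc2)⟩
  choose Q hQ using hsub
  have hfib : ∀ R : T, Nat.card {g : Poly k γ // R.1 ∣ G + g.1 ^ p} * Fintype.card k ^ N ≤
      Nat.card (Poly k γ) := fun R => by
    have hR : Irreducible R.1 :=
      UniqueFactorizationMonoid.irreducible_of_factor _ (Multiset.mem_toFinset.mp R.2)
    obtain ⟨i, hi⟩ := exists_coord hR.not_isUnit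
    set K : Submodule k (Poly k γ) :=
      ((Ideal.span {R.1}).restrictScalars k).comap (Submodule.subtype _)
    refine natCard_coset K.mkQ _ (fun v w hv hw => ?_) (hN.trans ?_)
    · rw [Submodule.mkQ_apply, Submodule.Quotient.mk_eq_zero]
      show v.1 - w.1 ∈ Ideal.span {R.1}
      rw [Ideal.mem_span_singleton]
      haveI : ExpChar (MvPolynomial (Fin 2) k) p := ExpChar.prime (Fact.out : p.Prime)
      have h := dvd_sub hv hw
      rw [add_sub_add_left_eq_sub, ← sub_pow_expChar] at h
      exact (UniqueFactorizationMonoid.irreducible_iff_prime.mp hR).dvd_of_dvd_pow h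
    · rw [Submodule.range_mkQ, finrank_top]
      let ι : Polynomial.degreeLT k (γ + 1) →ₗ[k] Poly k γ :=
        LinearMap.codRestrict _
          ((Polynomial.aeval (X i : MvPolynomial (Fin 2) k)).toLinearMap ∘ₗ
            (Polynomial.degreeLT k (γ + 1)).subtype)
          fun S => (mem_restrictTotalDegree _ _ _).mpr ((totalDegree_aeval_X_le i _).trans (by
            have := S.2
            rw [Polynomial.mem_degreeLT] at this
            simp only [Submodule.subtype_apply]
            rcases eq_or_ne (S : Polynomial k) 0 with h0 | h0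
            · rw [h0, Polynomial.natDegree_zero]; omega
            · rw [← Polynomial.natDegree_lt_iff_degree_lt h0] at this
              omega))
      have hinj : Function.Injective (K.mkQ ∘ₗ ι) :=
        LinearMap.ker_eq_bot.mp <| LinearMap.ker_eq_bot'.mpr fun S hS => by
          rw [LinearMap.comp_apply, Submodule.mkQ_apply, Submodule.Quotient.mk_eq_zero] at hS
          exact Subtype.ext (hi _ (Ideal.mem_span_singleton.mp hS))
      have h := LinearMap.finrank_le_finrank_of_injective hinj
      rwa [(Polynomial.degreeLTEquiv k (γ + 1)).finrank_eq, Module.finrank_fin_fun] at h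
  have h1 : Nat.card {g : Poly k γ // F ≠ 0 ∧ ¬ IsRelPrime F (G + g.1 ^ p)} ≤
      ∑ R : T, Nat.card {g : Poly k γ // R.1 ∣ G + g.1 ^ p} := by
    rw [← Nat.card_sigma]
    exact Nat.card_le_card_of_injective
      (fun g => ⟨Q g, ⟨g.1, hQ g⟩⟩)
      fun g g' e => Subtype.ext (congrArg (fun x : Σ R : T,
        {g : Poly k γ // R.1 ∣ G + g.1 ^ p} => x.2.1) e)
  refine (Nat.mul_le_mul_right _ h1).trans ?_
  rw [Finset.sum_mul]
  refine (Finset.sum_le_sum fun R _ => hfib R).trans ?_
  rw [Finset.sum_const, Finset.card_univ, Fintype.card_coe, smul_eq_mul]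
  exact Nat.mul_le_mul_right _
    (((Multiset.toFinset_card_le _).trans (card_factors_le hF)).trans hFd)

/-- A common zero of high degree lies on the curve. -/
theorem card_high_point (hγ : p * γ + 1 ≤ d) (hN : N ≤ γ + 1) :
    Nat.card {x : Data k d γ // IsRelPrime (pderiv 0 (combine p x)) (pderiv 1 (combine p x)) ∧
      ∃ P : Pt k, N ≤ degPt k P ∧ SingularAt P (combine p x)} * Fintype.card k ^ N ≤
      (d * d) ^ 2 * Nat.card (Data k d γ) := by
  have hD : ∀ (x : Data k d γ) (i : Fin 2),
      pderiv i (combine p x) = pderiv i (combine p ((x.1, 0) : Data k d γ)) := fun x i => by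
    simp [combine]
  refine natCard_slices (Equiv.refl (Data k d γ)) _ fun a => ?_
  simp only [Equiv.refl_symm, Equiv.refl_apply]
  by_cases hrel : IsRelPrime (pderiv 0 (combine p ((a, 0) : Data k d γ)))
      (pderiv 1 (combine p ((a, 0) : Data k d γ)))
  swap
  · have : IsEmpty {h : Poly k γ // IsRelPrime (pderiv 0 (combine p ((a, h) : Data k d γ)))
        (pderiv 1 (combine p ((a, h) : Data k d γ))) ∧
          ∃ P : Pt k, N ≤ degPt k P ∧ SingularAt P (combine p ((a, h) : Data k d γ))} :=
      ⟨fun h => hrel (by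
        have h1 := h.2.1
        rwa [hD _ 0, hD _ 1] at h1)⟩
    simp
  obtain ⟨S, hScard, hS⟩ := exists_finset_common_zeros (AlgebraicClosure k) hrel
    (totalDegree_pderiv_combine_le hγ 0 _) (totalDegree_pderiv_combine_le hγ 1 _)
  set T := S.filter fun P => N ≤ degPt k P
  have hfib : ∀ P : T, Nat.card {h : Poly k γ //
      aeval P.1 (combine p ((a, h) : Data k d γ)) = 0} * Fintype.card k ^ N ≤
      Nat.card (Poly k γ) := fun P => by
    refine natCard_coset (evalPoly P.1 γ) _ (fun v w hv hw => ?_) ?_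
    · haveI := charP_of_injective_algebraMap (algebraMap k (AlgebraicClosure k)).injective p
      show aeval P.1 (v.1 - w.1) = 0
      rw [map_sub, sub_eq_zero]
      refine eq_of_pow_char_eq (p := p) ?_
      have h := hv.trans hw.symm
      simpa [combine] using h
    · rw [range_evalPoly]
      exact le_trans (le_min hN (Finset.mem_filter.mp P.2).2) (min_le_finrank_valueSpan _ _)
  have hsub : ∀ h : {h : Poly k γ // IsRelPrime (pderiv 0 (combine p ((a, h) : Data k d γ)))
      (pderiv 1 (combine p ((a, h) : Data k d γ))) ∧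
        ∃ P : Pt k, N ≤ degPt k P ∧ SingularAt P (combine p ((a, h) : Data k d γ))},
      ∃ P : T, aeval P.1 (combine p ((a, h.1) : Data k d γ)) = 0 := fun h => by
    obtain ⟨P, hP, h0, h1, h2⟩ := h.2.2
    rw [hD] at h1 h2
    exact ⟨⟨P, Finset.mem_filter.mpr ⟨hS P h1 h2, hP⟩⟩, h0⟩
  choose P hP using hsub
  have h1 := Nat.card_le_card_of_injective
    (β := Σ R : T, {h : Poly k γ // aeval R.1 (combine p ((a, h) : Data k d γ)) = 0})
    (fun h => ⟨P h, ⟨h.1, hP h⟩⟩)
    fun g g' e => Subtype.ext (congrArg (fun x : Σ R : T,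
      {h : Poly k γ // aeval R.1 (combine p ((a, h) : Data k d γ)) = 0} => x.2.1) e)
  rw [Nat.card_sigma] at h1
  refine (Nat.mul_le_mul_right _ h1).trans ?_
  rw [Finset.sum_mul]
  refine (Finset.sum_le_sum fun R _ => hfib R).trans ?_
  rw [Finset.sum_const, Finset.card_univ, Fintype.card_coe, smul_eq_mul]
  exact Nat.mul_le_mul_right _ ((Finset.card_filter_le _ _).trans hScard)

end

/-- **The high degree points.** -/
theorem proportion_high_le (p : ℕ) [Fact p.Prime] [CharP k p] {d : ℕ} (hd : 1 ≤ d) :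
    proportion d (fun f : MvPolynomial (Fin 2) k => ∃ P : Pt k, d / (3 * p) ≤ degPt k P ∧
        SingularAt P f) ≤
      ((d : ℝ) + 1) ^ 4 / (Fintype.card k : ℝ) ^ (d / (3 * p)) := by
  set γ := (d - 1) / p
  set N := d / (3 * p)
  have hp : p.Prime := Fact.out
  have hp0 := hp.pos
  have hγ : p * γ + 1 ≤ d := by
    have h : p * γ ≤ d - 1 := Nat.mul_div_le (d - 1) p
    omega
  have hN : N ≤ γ + 1 := by
    have h1 : N ≤ d / p := Nat.div_le_div_left (Nat.le_mul_of_pos_left p (by norm_num)) hp0
    have h2 : d / p ≤ γ + 1 := by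
      rw [← Nat.lt_succ_iff, Nat.div_lt_iff_lt_mul hp0]
      have h3 : d - 1 < p * (γ + 1) := Nat.lt_mul_div_succ (d - 1) hp0
      rw [Nat.succ_mul, mul_comm (γ + 1)]
      omega
    exact h1.trans h2
  rw [proportion_eq_combine hγ]
  have hA := card_first_zero (k := k) (p := p) (d := d) (γ := γ) hN
  have hB := card_common_factor (k := k) (p := p) hγ hN
  have hC := card_high_point (k := k) (p := p) hγ hN
  haveI := Fintype.ofFinite (Data k d γ)
  simp only [Nat.card_eq_fintype_card] at hA hB hC ⊢
  set SA := fun x : Data k d γ => pderiv 0 (combine p x) = 0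
  set SB := fun x : Data k d γ => pderiv 0 (combine p x) ≠ 0 ∧
    ¬ IsRelPrime (pderiv 0 (combine p x)) (pderiv 1 (combine p x))
  set SC := fun x : Data k d γ => IsRelPrime (pderiv 0 (combine p x)) (pderiv 1 (combine p x)) ∧
    ∃ P : Pt k, N ≤ degPt k P ∧ SingularAt P (combine p x)
  have hunion : Fintype.card {x : Data k d γ // ∃ P : Pt k, N ≤ degPt k P ∧
      SingularAt P (combine p x)} ≤
      Fintype.card {x // SA x} + Fintype.card {x // SB x} + Fintype.card {x // SC x} := by
    refine le_trans ?_ ((Fintype.card_subtype_or (fun x => SA x ∨ SB x) SC).trans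
      (Nat.add_le_add_right (Fintype.card_subtype_or SA SB) _))
    refine Fintype.card_subtype_mono _ _ fun x hx => ?_
    by_cases h0 : pderiv 0 (combine p x) = 0
    · exact Or.inl (Or.inl h0)
    · by_cases h1 : IsRelPrime (pderiv 0 (combine p x)) (pderiv 1 (combine p x))
      · exact Or.inr ⟨h1, hx⟩
      · exact Or.inl (Or.inr ⟨h0, h1⟩)
  have hall : Fintype.card {x : Data k d γ // ∃ P : Pt k, N ≤ degPt k P ∧
      SingularAt P (combine p x)} * Fintype.card k ^ N ≤
      (d + 1) ^ 4 * Fintype.card (Data k d γ) := by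
    refine (Nat.mul_le_mul_right _ hunion).trans ?_
    rw [add_mul, add_mul]
    refine (Nat.add_le_add (Nat.add_le_add hA hB) hC).trans ?_
    rw [← add_mul, ← add_mul]
    refine Nat.mul_le_mul_right _ ?_
    nlinarith [sq_nonneg (d : ℤ)]
  rw [div_le_div_iff₀ (by exact_mod_cast Fintype.card_pos)
    (pow_pos (by exact_mod_cast Fintype.card_pos) _)]
  exact_mod_cast hall

end FA.PlaneBertini
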