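import Mathlib.Algebra.MvPolynomial.Basic
import Mathlib.Dynamics.PeriodicPts.Lemmas
import Mathlib.FieldTheory.Finite.GaloisField
import Mathlib.FieldTheory.Finiteness
import Mathlib.FieldTheory.IsAlgClosed.AlgebraicClosure
import Mathlib.LinearAlgebra.FreeModule.Finite.Matrix
import Mathlib.RingTheory.MvPolynomial.Basic
import Mathlib.Tactic

/-!
# Points of the plane over the algebraic closure of a finite field

The degree of a point is its period under Frobenius; it is the degree of the field of values of
the polynomials at the point, any two points with the same relations are conjugate, and every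
value is the value of a polynomial of degree below the degree of the point.
-/

set_option autoImplicit false
set_option linter.style.openClassical false
set_option linter.style.haveILetI false
set_option linter.unusedSectionVars false

noncomputable section

open scoped Classical

namespace FA.PlaneBertini

open MvPolynomial

variable (k : Type*) [Field k] [Fintype k]

/-- The plane over the algebraic closure. -/
abbrev Pt := Fin 2 → AlgebraicClosure k

/-- Frobenius on the points. -/
def frobPt (P : Pt k) : Pt k := fun i => P i ^ Fintype.card k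

/-- The degree of a point. -/
def degPt (P : Pt k) : ℕ := Function.minimalPeriod (frobPt k) P

/-- The points rational over the extension of degree `n`. -/
def fixPts (n : ℕ) : Finset (Pt k) :=
  Fintype.piFinset fun _ : Fin 2 => ((Polynomial.X ^ Fintype.card k ^ n - Polynomial.X :
    Polynomial (AlgebraicClosure k)).roots).toFinset

/-- The values at a point. -/
def valueAlg (P : Pt k) : Subalgebra k (AlgebraicClosure k) :=
  (aeval P : MvPolynomial (Fin 2) k →ₐ[k] AlgebraicClosure k).range

/-- The conjugates of a point. -/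
def orbitPt (P : Pt k) : Finset (Pt k) :=
  (Finset.range (degPt k P)).image fun i => (frobPt k)^[i] P

variable {k}

theorem iterate_frobPt (n : ℕ) (P : Pt k) :
    (frobPt k)^[n] P = fun i => P i ^ Fintype.card k ^ n := by
  induction n with
  | zero => simp
  | succ n ih =>
    rw [Function.iterate_succ_apply', ih]
    funext i
    rw [frobPt, ← pow_mul, ← pow_succ]

theorem frobenius_iterate (n : ℕ) (x : AlgebraicClosure k) :
    (FiniteField.frobeniusAlgHom k (AlgebraicClosure k) ^ n) x = x ^ Fintype.card k ^ n := by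
  induction n with
  | zero => simp
  | succ n ih =>
    rw [pow_succ', AlgHom.mul_apply, ih, FiniteField.coe_frobeniusAlgHom]
    show (x ^ Fintype.card k ^ n) ^ Fintype.card k = _
    rw [← pow_mul, ← pow_succ]

/-- Frobenius commutes with evaluation. -/
theorem aeval_iterate_frobPt (n : ℕ) (P : Pt k) (g : MvPolynomial (Fin 2) k) :
    aeval ((frobPt k)^[n] P) g = aeval P g ^ Fintype.card k ^ n := by
  rw [← frobenius_iterate, comp_aeval_apply, iterate_frobPt]
  simp only [frobenius_iterate]

theorem card_roots_frobenius {n : ℕ} (hn : n ≠ 0) :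
    ((Polynomial.X ^ Fintype.card k ^ n - Polynomial.X :
      Polynomial (AlgebraicClosure k)).roots).toFinset.card = Fintype.card k ^ n := by
  obtain ⟨p, hp⟩ := CharP.exists k
  haveI := charP_of_injective_algebraMap (algebraMap k (AlgebraicClosure k)).injective p
  have hpq : p ∣ Fintype.card k ^ n :=
    ((CharP.cast_eq_zero_iff k p (Fintype.card k)).mp (Nat.cast_card_eq_zero k)).trans
      (dvd_pow_self _ hn)
  have hsep := galois_poly_separable (K := AlgebraicClosure k) p _ hpq
  rw [Multiset.toFinset_card_of_nodup (Polynomial.nodup_roots hsep),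
    IsAlgClosed.card_roots_eq_natDegree,
    Polynomial.natDegree_sub_eq_left_of_natDegree_lt, Polynomial.natDegree_X_pow]
  rw [Polynomial.natDegree_X_pow, Polynomial.natDegree_X]
  exact Nat.one_lt_pow hn Fintype.one_lt_card

theorem mem_fixPts {n : ℕ} (hn : n ≠ 0) {P : Pt k} :
    P ∈ fixPts k n ↔ Function.IsPeriodicPt (frobPt k) n P := by
  have hne : (Polynomial.X ^ Fintype.card k ^ n - Polynomial.X :
      Polynomial (AlgebraicClosure k)) ≠ 0 :=
    FiniteField.X_pow_card_pow_sub_X_ne_zero (AlgebraicClosure k) hn Fintype.one_lt_card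
  simp only [fixPts, Fintype.mem_piFinset, Multiset.mem_toFinset, Polynomial.mem_roots hne,
    Function.IsPeriodicPt, Function.IsFixedPt, iterate_frobPt, funext_iff]
  simp [Polynomial.IsRoot, sub_eq_zero]

theorem card_fixPts {n : ℕ} (hn : n ≠ 0) : (fixPts k n).card = (Fintype.card k ^ n) ^ 2 := by
  rw [fixPts, Fintype.card_piFinset, Fin.prod_const, card_roots_frobenius hn]

theorem exists_periodic (a : AlgebraicClosure k) : ∃ n, n ≠ 0 ∧ a ^ Fintype.card k ^ n = a := by
  have ha : IsIntegral k a := (Algebra.IsAlgebraic.isAlgebraic a).isIntegral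
  set L := IntermediateField.adjoin k {a}
  haveI : FiniteDimensional k L := IntermediateField.adjoin.finiteDimensional ha
  haveI : Finite L := Module.finite_of_finite k
  haveI := Fintype.ofFinite L
  refine ⟨Module.finrank k L, Module.finrank_pos.ne', ?_⟩
  have h := FiniteField.pow_card (⟨a, IntermediateField.mem_adjoin_simple_self k a⟩ : L)
  rw [Module.card_eq_pow_finrank (K := k)] at h
  exact congrArg Subtype.val h

theorem mem_periodicPts_frobPt (P : Pt k) : P ∈ Function.periodicPts (frobPt k) := by
  choose n hn h using fun i => exists_periodic (P i)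
  refine Function.mk_mem_periodicPts
    (n := n 0 * n 1) (Nat.mul_pos (Nat.pos_of_ne_zero (hn 0)) (Nat.pos_of_ne_zero (hn 1))) ?_
  show (frobPt k)^[n 0 * n 1] P = P
  rw [iterate_frobPt]
  funext i
  have key : ∀ (i : Fin 2) (c : ℕ), P i ^ Fintype.card k ^ (n i * c) = P i := fun i c => by
    induction c with
    | zero => simp
    | succ c ih => rw [Nat.mul_succ, pow_add, pow_mul, ih, h i]
  fin_cases i
  · exact key 0 (n 1)
  · rw [mul_comm]; exact key 1 (n 0)

theorem degPt_pos (P : Pt k) : 0 < degPt k P :=
  Function.minimalPeriod_pos_of_mem_periodicPts (mem_periodicPts_frobPt P)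

theorem mem_fixPts_iff_dvd {n : ℕ} (hn : n ≠ 0) {P : Pt k} :
    P ∈ fixPts k n ↔ degPt k P ∣ n :=
  (mem_fixPts hn).trans Function.isPeriodicPt_iff_minimalPeriod_dvd

theorem mem_valueAlg {P : Pt k} {x : AlgebraicClosure k} :
    x ∈ valueAlg k P ↔ ∃ g : MvPolynomial (Fin 2) k, aeval P g = x := by
  simp [valueAlg]

theorem pow_of_mem_valueAlg {P : Pt k} {x : AlgebraicClosure k} (hx : x ∈ valueAlg k P) :
    x ^ Fintype.card k ^ degPt k P = x := by
  obtain ⟨g, rfl⟩ := mem_valueAlg.mp hx
  rw [← aeval_iterate_frobPt, degPt, Function.iterate_minimalPeriod (f := frobPt k)]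

theorem finite_valueAlg (P : Pt k) : Finite (valueAlg k P) :=
  Set.Finite.to_subtype (((Polynomial.X ^ Fintype.card k ^ degPt k P - Polynomial.X :
    Polynomial (AlgebraicClosure k)).roots).toFinset.finite_toSet.subset fun x hx => by
      have hne : (Polynomial.X ^ Fintype.card k ^ degPt k P - Polynomial.X :
          Polynomial (AlgebraicClosure k)) ≠ 0 :=
        FiniteField.X_pow_card_pow_sub_X_ne_zero (AlgebraicClosure k) (degPt_pos P).ne'
          Fintype.one_lt_card
      rw [Finset.mem_coe, Multiset.mem_toFinset, Polynomial.mem_roots hne, Polynomial.IsRoot,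
        Polynomial.eval_sub, Polynomial.eval_pow, Polynomial.eval_X,
        pow_of_mem_valueAlg hx, sub_self])

instance (P : Pt k) : Finite (valueAlg k P) := finite_valueAlg P

instance (P : Pt k) : Module.Finite k (valueAlg k P) := Module.Finite.of_finite

/-- **The field of values has degree `degPt`.** -/
theorem finrank_valueAlg (P : Pt k) : Module.finrank k (valueAlg k P) = degPt k P := by
  haveI := Fintype.ofFinite (valueAlg k P)
  letI : Field (valueAlg k P) := Fintype.fieldOfDomain _
  set f := Module.finrank k (valueAlg k P)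
  have hcard : Fintype.card (valueAlg k P) = Fintype.card k ^ f :=
    Module.card_eq_pow_finrank
  have hf : f ≠ 0 := Module.finrank_pos.ne'
  have hdvd : degPt k P ∣ f := by
    refine (mem_fixPts_iff_dvd hf).mp ((mem_fixPts hf).mpr ?_)
    show (frobPt k)^[f] P = P
    rw [iterate_frobPt]
    funext i
    have h := FiniteField.pow_card (⟨P i, mem_valueAlg.mpr ⟨X i, aeval_X P i⟩⟩ : valueAlg k P)
    rw [hcard] at h
    exact congrArg Subtype.val h
  refine le_antisymm ?_ (Nat.le_of_dvd (Nat.pos_of_ne_zero hf) hdvd)
  have hle : Fintype.card (valueAlg k P) ≤ Fintype.card k ^ degPt k P := by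
    rw [← card_roots_frobenius (k := k) (degPt_pos P).ne', ← Fintype.card_coe]
    refine Fintype.card_le_of_injective (fun x => ⟨(x : AlgebraicClosure k), ?_⟩)
      fun x y h => Subtype.ext (congrArg (fun z => (z.1 : AlgebraicClosure k)) h)
    have hne : (Polynomial.X ^ Fintype.card k ^ degPt k P - Polynomial.X :
        Polynomial (AlgebraicClosure k)) ≠ 0 :=
      FiniteField.X_pow_card_pow_sub_X_ne_zero (AlgebraicClosure k) (degPt_pos P).ne'
        Fintype.one_lt_card
    rw [Multiset.mem_toFinset, Polynomial.mem_roots hne, Polynomial.IsRoot, Polynomial.eval_sub,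
      Polynomial.eval_pow, Polynomial.eval_X, pow_of_mem_valueAlg x.2, sub_self]
  rw [hcard] at hle
  exact (Nat.pow_le_pow_iff_right Fintype.one_lt_card).mp hle

/-- The values of the polynomials of degree at most `j`. -/
def valueSpan (P : Pt k) (j : ℕ) : Submodule k (AlgebraicClosure k) :=
  (restrictTotalDegree (Fin 2) k j).map
    (aeval P : MvPolynomial (Fin 2) k →ₐ[k] AlgebraicClosure k).toLinearMap

theorem valueSpan_le (P : Pt k) (j : ℕ) :
    valueSpan P j ≤ Subalgebra.toSubmodule (valueAlg k P) := by
  rintro _ ⟨g, -, rfl⟩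
  exact mem_valueAlg.mpr ⟨g, rfl⟩

theorem aeval_mem_valueSpan (P : Pt k) {g : MvPolynomial (Fin 2) k} {j : ℕ}
    (hg : g.totalDegree ≤ j) : aeval P g ∈ valueSpan P j :=
  ⟨g, (mem_restrictTotalDegree _ _ _).mpr hg, rfl⟩

/-- The values grow by a dimension with each degree until they exhaust the field. -/
theorem min_le_finrank_valueSpan (P : Pt k) (j : ℕ) :
    min (j + 1) (degPt k P) ≤ Module.finrank k (valueSpan P j) := by
  haveI : Module.Finite k (Subalgebra.toSubmodule (valueAlg k P)) :=
    inferInstanceAs (Module.Finite k (valueAlg k P))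
  haveI hfin : ∀ j, Module.Finite k (valueSpan P j) := fun j =>
    Submodule.finiteDimensional_of_le (valueSpan_le P j)
  induction j with
  | zero =>
    refine (min_le_left _ _).trans (Nat.one_le_iff_ne_zero.mpr fun h0 => ?_)
    have h1 : (1 : AlgebraicClosure k) ∈ valueSpan P 0 := by
      simpa using aeval_mem_valueSpan P (g := (1 : MvPolynomial (Fin 2) k)) (j := 0) (by simp)
    rw [Submodule.finrank_eq_zero.mp h0, Submodule.mem_bot] at h1
    exact one_ne_zero h1
  | succ j ih =>
    have hle : valueSpan P j ≤ valueSpan P (j + 1) := by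
      rintro _ ⟨g, hg, rfl⟩
      exact aeval_mem_valueSpan P (Nat.le_succ_of_le ((mem_restrictTotalDegree _ _ _).mp hg))
    rcases hle.eq_or_lt with heq | hlt
    · have hall : ∀ g : MvPolynomial (Fin 2) k, aeval P g ∈ valueSpan P (j + 1) := fun g => by
        induction g using MvPolynomial.induction_on with
        | C a => exact aeval_mem_valueSpan P (by simp)
        | add u v hu hv => rw [map_add]; exact Submodule.add_mem _ hu hv
        | mul_X u i hu =>
          rw [← heq] at hu
          obtain ⟨w, hw, hwu⟩ := hu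
          rw [map_mul, ← show aeval P w = aeval P u from hwu, ← map_mul]
          refine aeval_mem_valueSpan P ((totalDegree_mul _ _).trans ?_)
          rw [totalDegree_X]
          exact Nat.add_le_add_right ((mem_restrictTotalDegree _ _ _).mp hw) 1
      have h : valueSpan P (j + 1) = Subalgebra.toSubmodule (valueAlg k P) :=
        le_antisymm (valueSpan_le P _) fun x hx => by
          obtain ⟨g, rfl⟩ := mem_valueAlg.mp hx
          exact hall g
      rw [h, Subalgebra.finrank_toSubmodule, finrank_valueAlg]
      exact min_le_right _ _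
    · have := Submodule.finrank_lt_finrank_of_lt hlt
      omega

/-- **Every value is one of a polynomial of degree below `degPt`.** -/
theorem exists_low_degree {P : Pt k} {x : AlgebraicClosure k} (hx : x ∈ valueAlg k P) :
    ∃ g : MvPolynomial (Fin 2) k, g.totalDegree ≤ degPt k P - 1 ∧ aeval P g = x := by
  haveI : Module.Finite k (Subalgebra.toSubmodule (valueAlg k P)) :=
    inferInstanceAs (Module.Finite k (valueAlg k P))
  have h : valueSpan P (degPt k P - 1) = Subalgebra.toSubmodule (valueAlg k P) := by
    refine Submodule.eq_of_le_of_finrank_le (valueSpan_le P _) ?_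
    rw [Subalgebra.finrank_toSubmodule, finrank_valueAlg]
    refine le_trans ?_ (min_le_finrank_valueSpan P _)
    have := degPt_pos P
    omega
  have hx' : x ∈ valueSpan P (degPt k P - 1) := h ▸ hx
  obtain ⟨g, hg, hgx⟩ := hx'
  exact ⟨g, (mem_restrictTotalDegree _ _ _).mp hg, hgx⟩

/-- **Points with the same relations are conjugate.** -/
theorem exists_iterate_of_ker {P Q : Pt k}
    (h : ∀ g : MvPolynomial (Fin 2) k, aeval P g = 0 → aeval Q g = 0) :
    ∃ i, Q = (frobPt k)^[i] P := by
  set f := (aeval P : MvPolynomial (Fin 2) k →ₐ[k] AlgebraicClosure k).rangeRestrict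
  have hf : Function.Surjective f := AlgHom.rangeRestrict_surjective _
  set ψ : valueAlg k P →ₐ[k] AlgebraicClosure k :=
    AlgHom.liftOfSurjective f hf (aeval Q) fun g hg => h g (congrArg Subtype.val hg)
  set homs : Fin (degPt k P) → (valueAlg k P →ₐ[k] AlgebraicClosure k) := fun i =>
    (FiniteField.frobeniusAlgHom k (AlgebraicClosure k) ^ (i : ℕ)).comp (valueAlg k P).val
  have hinj : Function.Injective homs := fun i i' e => Fin.ext <| by
    refine Function.iterate_injOn_Iio_minimalPeriod (f := frobPt k) i.2 i'.2 ?_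
    show (frobPt k)^[(i : ℕ)] P = (frobPt k)^[(i' : ℕ)] P
    rw [iterate_frobPt, iterate_frobPt]
    funext j
    have := congrArg (fun φ => φ ⟨P j, mem_valueAlg.mpr ⟨X j, aeval_X P j⟩⟩) e
    simp only [homs, AlgHom.comp_apply, Subalgebra.coe_val] at this
    rwa [frobenius_iterate, frobenius_iterate] at this
  haveI := Fintype.ofFinite (valueAlg k P →ₐ[k] AlgebraicClosure k)
  have hle : Nat.card (valueAlg k P →ₐ[k] AlgebraicClosure k) ≤ degPt k P :=
    (card_algHom_le_finrank k (valueAlg k P) (AlgebraicClosure k)).trans_eq (finrank_valueAlg P)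
  have hsurj := ((Fintype.bijective_iff_injective_and_card homs).mpr ⟨hinj, by
    rw [Fintype.card_fin]
    refine le_antisymm ?_ (by rwa [Nat.card_eq_fintype_card] at hle)
    simpa using Fintype.card_le_of_injective homs hinj⟩).2
  obtain ⟨i, hi⟩ := hsurj ψ
  refine ⟨i, funext fun j => ?_⟩
  have h2 : ψ (f (X j)) = aeval Q (X j) := AlgHom.liftOfSurjective_apply f hf _ _ _
  rw [iterate_frobPt, ← aeval_X (R := k) Q j, ← h2, ← hi]
  show (FiniteField.frobeniusAlgHom k (AlgebraicClosure k) ^ (i : ℕ)) (aeval P (X j)) = _
  rw [frobenius_iterate, aeval_X]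

theorem mem_orbitPt {P Q : Pt k} : Q ∈ orbitPt k P ↔ ∃ i, Q = (frobPt k)^[i] P := by
  refine ⟨fun h => ?_, fun ⟨i, hi⟩ => Finset.mem_image.mpr
    ⟨i % degPt k P, Finset.mem_range.mpr (Nat.mod_lt _ (degPt_pos P)), ?_⟩⟩
  · obtain ⟨i, -, hi⟩ := Finset.mem_image.mp h
    exact ⟨i, hi.symm⟩
  · rw [hi, degPt, Function.iterate_mod_minimalPeriod_eq]

theorem self_mem_orbitPt (P : Pt k) : P ∈ orbitPt k P := mem_orbitPt.mpr ⟨0, rfl⟩

theorem card_orbitPt (P : Pt k) : (orbitPt k P).card = degPt k P := by
  rw [orbitPt, Finset.card_image_of_injOn, Finset.card_range]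
  intro i hi j hj h
  exact Function.iterate_injOn_Iio_minimalPeriod (Finset.mem_range.mp hi) (Finset.mem_range.mp hj) h

theorem degPt_of_mem_orbitPt {P Q : Pt k} (h : Q ∈ orbitPt k P) : degPt k Q = degPt k P := by
  obtain ⟨i, rfl⟩ := mem_orbitPt.mp h
  exact Function.minimalPeriod_apply_iterate (mem_periodicPts_frobPt P) i

theorem orbitPt_eq_of_mem {P Q : Pt k} (h : Q ∈ orbitPt k P) : orbitPt k Q = orbitPt k P := by
  refine Finset.eq_of_subset_of_card_le (fun R hR => ?_)
    (by rw [card_orbitPt, card_orbitPt, degPt_of_mem_orbitPt h])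
  obtain ⟨i, rfl⟩ := mem_orbitPt.mp h
  obtain ⟨j, rfl⟩ := mem_orbitPt.mp hR
  exact mem_orbitPt.mpr ⟨j + i, (Function.iterate_add_apply _ j i P).symm⟩

/-- A chosen conjugate. -/
def repPt (P : Pt k) : Pt k := Classical.epsilon fun Q => Q ∈ orbitPt k P

theorem repPt_mem (P : Pt k) : repPt P ∈ orbitPt k P :=
  Classical.epsilon_spec (p := fun Q => Q ∈ orbitPt k P) ⟨P, self_mem_orbitPt P⟩

theorem repPt_eq_of_mem {P Q : Pt k} (h : Q ∈ orbitPt k P) : repPt Q = repPt P := by
  simp only [repPt, orbitPt_eq_of_mem h]

end FA.PlaneBertini
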