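import Fermat.Agent.PlaneBertini.Eliminant
import Fermat.Agent.PlaneBertini.Points
import Mathlib.Algebra.MvPolynomial.PDeriv
import Mathlib.FieldTheory.Perfect
import Mathlib.FieldTheory.Minpoly.Field

/-!
# First order jets at the points

The value and the two partial derivatives of a polynomial at a point of degree `e` can be
prescribed in degree at most `2 e`, and at finitely many points, no two conjugate, all at once.
-/

set_option autoImplicit false
set_option linter.style.openClassical false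
set_option linter.style.haveILetI false
set_option linter.unusedSectionVars false

noncomputable section

open scoped Classical

namespace FA.PlaneBertini

open MvPolynomial

variable {k : Type*} [Field k] [Fintype k]

/-- `f` and its partial derivatives vanish at `P`. -/
def SingularAt (P : Pt k) (f : MvPolynomial (Fin 2) k) : Prop :=
  aeval P f = 0 ∧ aeval P (pderiv 0 f) = 0 ∧ aeval P (pderiv 1 f) = 0

theorem singularAt_iterate_iff (i : ℕ) (P : Pt k) (f : MvPolynomial (Fin 2) k) :
    SingularAt ((frobPt k)^[i] P) f ↔ SingularAt P f := by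
  simp only [SingularAt, aeval_iterate_frobPt,
    pow_eq_zero_iff (pow_ne_zero _ (Fintype.card_ne_zero (α := k)))]

theorem singularAt_repPt_iff (P : Pt k) (f : MvPolynomial (Fin 2) k) :
    SingularAt (repPt P) f ↔ SingularAt P f := by
  obtain ⟨i, hi⟩ := mem_orbitPt.mp (repPt_mem P)
  rw [hi, singularAt_iterate_iff]

variable (k) in
/-- The value, in the field of values. -/
def evalVal (P : Pt k) : MvPolynomial (Fin 2) k →ₐ[k] valueAlg k P :=
  AlgHom.codRestrict (aeval P) (valueAlg k P) fun g => mem_valueAlg.mpr ⟨g, rfl⟩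

theorem coe_evalVal (P : Pt k) (g : MvPolynomial (Fin 2) k) :
    ((evalVal k P g : valueAlg k P) : AlgebraicClosure k) = aeval P g := rfl

variable (k) in
/-- The jet: the value and the two partial derivatives. -/
def jet (P : Pt k) : MvPolynomial (Fin 2) k →ₗ[k] (Fin 3 → valueAlg k P) :=
  LinearMap.pi fun j => (evalVal k P).toLinearMap ∘ₗ
    (![LinearMap.id, (pderiv (0 : Fin 2)).toLinearMap, (pderiv (1 : Fin 2)).toLinearMap] j :
      MvPolynomial (Fin 2) k →ₗ[k] MvPolynomial (Fin 2) k)

theorem coe_jet (P : Pt k) (f : MvPolynomial (Fin 2) k) (j : Fin 3) :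
    ((jet k P f j : valueAlg k P) : AlgebraicClosure k) =
      ![aeval P f, aeval P (pderiv 0 f), aeval P (pderiv 1 f)] j := by
  fin_cases j <;> rfl

theorem jet_eq_zero_iff (P : Pt k) (f : MvPolynomial (Fin 2) k) :
    jet k P f = 0 ↔ SingularAt P f := by
  simp [funext_iff, Subtype.ext_iff, coe_jet, Fin.forall_fin_succ, SingularAt]

/-- A polynomial in one variable with a simple zero at the coordinate. -/
theorem exists_simple_zero (P : Pt k) (i : Fin 2) :
    ∃ u : Polynomial k, u.natDegree ≤ degPt k P ∧ Polynomial.aeval (P i) u = 0 ∧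
      Polynomial.aeval (P i) u.derivative ≠ 0 := by
  set x : valueAlg k P := ⟨P i, mem_valueAlg.mpr ⟨X i, aeval_X P i⟩⟩
  refine ⟨minpoly k x, (minpoly.natDegree_le x).trans_eq (finrank_valueAlg P), ?_, ?_⟩
  · have h := congrArg Subtype.val (minpoly.aeval k x)
    exact (Polynomial.aeval_algHom_apply (valueAlg k P).val x _).trans h
  · refine (PerfectField.separable_of_irreducible
      (minpoly.irreducible (Algebra.IsIntegral.isIntegral x))).aeval_derivative_ne_zero ?_
    have h := congrArg Subtype.val (minpoly.aeval k x)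
    exact (Polynomial.aeval_algHom_apply (valueAlg k P).val x _).trans h

theorem div_mem_valueAlg {P : Pt k} {a b : AlgebraicClosure k} (ha : a ∈ valueAlg k P)
    (hb : b ∈ valueAlg k P) : a / b ∈ valueAlg k P := by
  rw [div_eq_mul_inv]
  exact mul_mem ha
    ((valueAlg k P).inv_mem_of_algebraic (x := ⟨b, hb⟩) (Algebra.IsAlgebraic.isAlgebraic b))

/-- **Jets at one point**, in degree at most `2 e`. -/
theorem exists_jet_eq (P : Pt k) (a : Fin 3 → valueAlg k P) :
    ∃ f : MvPolynomial (Fin 2) k, f.totalDegree ≤ 2 * degPt k P ∧ jet k P f = a := by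
  choose u hud hu0 hu1 using fun i => exists_simple_zero P i
  have hmem : ∀ g : MvPolynomial (Fin 2) k, aeval P g ∈ valueAlg k P := fun g =>
    mem_valueAlg.mpr ⟨g, rfl⟩
  obtain ⟨V, hVd, hV⟩ := exists_low_degree (a 0).2
  have hslot : ∀ (i : Fin 2) (b : AlgebraicClosure k), b ∈ valueAlg k P →
      ∃ A : MvPolynomial (Fin 2) k, A.totalDegree ≤ degPt k P - 1 ∧
        aeval P A * Polynomial.aeval (P i) (u i).derivative = b - aeval P (pderiv i V) := by
    intro i b hb
    have hden : Polynomial.aeval (P i) (u i).derivative ∈ valueAlg k P := by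
      rw [← aeval_X (R := k) P i, Polynomial.aeval_algHom_apply]
      exact hmem _
    obtain ⟨A, hAd, hA⟩ := exists_low_degree (div_mem_valueAlg (sub_mem hb (hmem (pderiv i V)))
      hden)
    exact ⟨A, hAd, by rw [hA, div_mul_cancel₀ _ (hu1 i)]⟩
  obtain ⟨A, hAd, hA⟩ := hslot 0 _ (a 1).2
  obtain ⟨B, hBd, hB⟩ := hslot 1 _ (a 2).2
  refine ⟨V + A * Polynomial.aeval (X 0) (u 0) + B * Polynomial.aeval (X 1) (u 1), ?_, ?_⟩
  · have h0 := (totalDegree_mul A _).trans (Nat.add_le_add hAd
      ((totalDegree_aeval_X_le 0 (u 0)).trans (hud 0)))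
    have h1 := (totalDegree_mul B _).trans (Nat.add_le_add hBd
      ((totalDegree_aeval_X_le 1 (u 1)).trans (hud 1)))
    refine (totalDegree_add _ _).trans (max_le ((totalDegree_add _ _).trans (max_le ?_ ?_)) ?_)
      <;> omega
  · have hz : ∀ i : Fin 2, aeval P (Polynomial.aeval (X i) (u i)) = 0 := fun i => by
      rw [← Polynomial.aeval_algHom_apply, aeval_X, hu0]
    funext j
    refine Subtype.ext ?_
    rw [coe_jet]
    fin_cases j
    · simp [hz, hV]
    · simp [hz, ← Polynomial.aeval_algHom_apply, hA]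
    · simp [hz, ← Polynomial.aeval_algHom_apply, hB]

/-- Two points of which neither is conjugate to the other are separated. -/
theorem exists_separating {P Q : Pt k} (h : Q ∉ orbitPt k P) :
    ∃ l : MvPolynomial (Fin 2) k, aeval P l = 0 ∧ aeval Q l ≠ 0 := by
  by_contra! hall
  exact h (mem_orbitPt.mpr (exists_iterate_of_ker fun g hg => hall g hg))

/-- **Jets of multiples** of a polynomial that does not vanish at the point. -/
theorem exists_jet_mul_eq (P : Pt k) {E : MvPolynomial (Fin 2) k} (hE : aeval P E ≠ 0)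
    (a : Fin 3 → valueAlg k P) :
    ∃ g : MvPolynomial (Fin 2) k, g.totalDegree ≤ 2 * degPt k P ∧ jet k P (E * g) = a := by
  set c := evalVal k P E
  have hc : (c : AlgebraicClosure k) ≠ 0 := hE
  have hcm := c.2
  set b0 : AlgebraicClosure k := (a 0 : AlgebraicClosure k) / c
  have hb0 : b0 ∈ valueAlg k P := div_mem_valueAlg (a 0).2 hcm
  have hb : ∀ i : Fin 2, ((a i.succ : AlgebraicClosure k) -
      aeval P (pderiv i E) * b0) / c ∈ valueAlg k P := fun i =>
    div_mem_valueAlg (sub_mem (a i.succ).2 (mul_mem (mem_valueAlg.mpr ⟨_, rfl⟩) hb0)) hcm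
  obtain ⟨g, hgd, hg⟩ := exists_jet_eq P ![⟨b0, hb0⟩, ⟨_, hb 0⟩, ⟨_, hb 1⟩]
  refine ⟨g, hgd, funext fun j => Subtype.ext ?_⟩
  have hg' := fun j => congrArg Subtype.val (congrFun hg j)
  simp only [coe_jet] at hg'
  have g0 : aeval P g = b0 := hg' 0
  have g1 := hg' 1
  have g2 := hg' 2
  simp only [Matrix.cons_val] at g1 g2
  rw [coe_jet]
  have hcE : aeval P E = c := rfl
  fin_cases j
  · simp [g0, hcE, b0]; field_simp
  · simp [g0, g1, hcE, b0]; field_simp; ring
  · simp [g0, g2, hcE, b0]; field_simp; ring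

theorem jet_sq_mul_eq_zero {P : Pt k} {l : MvPolynomial (Fin 2) k} (hl : aeval P l = 0)
    (g : MvPolynomial (Fin 2) k) : jet k P (l ^ 2 * g) = 0 := by
  refine (jet_eq_zero_iff _ _).mpr ?_
  simp only [SingularAt, pderiv_mul, pow_two, map_add, map_mul, hl, zero_mul, mul_zero, add_zero,
    and_self]

/-- **Jets at finitely many points, no two conjugate.** -/
theorem exists_jets_eq {S : Finset (Pt k)}
    (hS : ∀ P ∈ S, ∀ Q ∈ S, Q ∈ orbitPt k P → Q = P)
    (a : ∀ P : S, Fin 3 → valueAlg k P.1) :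
    ∃ f : MvPolynomial (Fin 2) k, ∀ P : S, jet k P.1 f = a P := by
  have hsep : ∀ P Q : S, ∃ l : MvPolynomial (Fin 2) k,
      P ≠ Q → aeval Q.1 l = 0 ∧ aeval P.1 l ≠ 0 := fun P Q => by
    rcases eq_or_ne P Q with h | h
    · exact ⟨0, fun h' => absurd h h'⟩
    · obtain ⟨l, hl⟩ := exists_separating (P := Q.1) (Q := P.1) fun hm =>
        h (Subtype.ext (hS Q.1 Q.2 P.1 P.2 hm))
      exact ⟨l, fun _ => hl⟩
  choose l hl using hsep
  set E : S → MvPolynomial (Fin 2) k := fun P => (∏ Q ∈ Finset.univ.erase P, l P Q) ^ 2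
  have hE : ∀ P, aeval P.1 (E P) ≠ 0 := fun P => by
    simp only [E, map_pow, map_prod]
    exact pow_ne_zero _ (Finset.prod_ne_zero_iff.mpr fun Q hQ =>
      (hl P Q (Finset.ne_of_mem_erase hQ).symm).2)
  have hvan : ∀ (P Q : S) (g : MvPolynomial (Fin 2) k), P ≠ Q → jet k Q.1 (E P * g) = 0 := by
    intro P Q g h
    have h0 : aeval Q.1 (∏ R ∈ Finset.univ.erase P, l P R) = 0 := by
      rw [map_prod]
      exact Finset.prod_eq_zero (Finset.mem_erase.mpr ⟨h.symm, Finset.mem_univ _⟩) (hl P Q h).1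
    exact jet_sq_mul_eq_zero h0 g
  have hsurj : ∀ P : S, ∃ g : MvPolynomial (Fin 2) k, jet k P.1 (E P * g) = a P := fun P =>
    (exists_jet_mul_eq P.1 (hE P) (a P)).imp fun g hg => hg.2
  choose g hg using hsurj
  refine ⟨∑ P, E P * g P, fun Q => ?_⟩
  rw [map_sum, Fintype.sum_eq_single Q fun P hP => hvan P Q _ hP, hg]

/-- **Every sufficiently large degree suffices.** -/
theorem exists_degree_jets {S : Finset (Pt k)}
    (hS : ∀ P ∈ S, ∀ Q ∈ S, Q ∈ orbitPt k P → Q = P) :
    ∃ D, ∀ (a : ∀ P : S, Fin 3 → valueAlg k P.1), ∃ f : MvPolynomial (Fin 2) k,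
      f.totalDegree ≤ D ∧ ∀ P : S, jet k P.1 f = a P := by
  haveI := Fintype.ofFinite (∀ P : S, Fin 3 → valueAlg k P.1)
  choose f hf using exists_jets_eq hS
  exact ⟨Finset.univ.sup fun a => (f a).totalDegree,
    fun a => ⟨f a, Finset.le_sup (f := fun a => (f a).totalDegree) (Finset.mem_univ a), hf a⟩⟩

end FA.PlaneBertini
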