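import Fermat.Agent.PlaneBertini.Euler
import Fermat.Agent.PlaneBertini.High

/-!
# Poonen's theorem in the plane

The proportion of the curves `f = 0` of degree at most `d` with no singular point tends to
`1 - 1/q`.
-/

set_option autoImplicit false
set_option linter.style.openClassical false
set_option linter.style.haveILetI false
set_option linter.unusedSectionVars false

noncomputable section

open scoped Classical Nat Topology
open Filter

namespace FA.PlaneBertini

open MvPolynomial

variable {k : Type*} [Field k] [Fintype k]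

theorem sum_Ioc_pow_le {y : ℝ} (hy0 : 0 ≤ y) (hy : y ≤ 1 / 2) (r M : ℕ) :
    ∑ e ∈ Finset.Ioc r M, y ^ e ≤ y ^ r := by
  rcases le_or_gt M r with h | h
  · rw [Finset.Ioc_eq_empty_of_le h, Finset.sum_empty]
    positivity
  have key : ∀ M, r ≤ M → ∑ e ∈ Finset.Ioc r M, y ^ e ≤ y ^ r - y ^ M := fun M hM => by
    induction M, hM using Nat.le_induction with
    | base => simp
    | succ M hM ih =>
      rw [Finset.sum_Ioc_succ_top hM]
      nlinarith [pow_nonneg hy0 M, pow_succ y M]
  exact (key M h.le).trans (sub_le_self _ (pow_nonneg hy0 M))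

/-- **The medium degree points.** -/
theorem proportion_medium_le (d r : ℕ) :
    proportion d (fun f : MvPolynomial (Fin 2) k =>
      ∃ P : Pt k, r < degPt k P ∧ degPt k P ≤ d / 2 ∧ SingularAt P f) ≤
        ((Fintype.card k : ℝ)⁻¹) ^ r := by
  set q : ℝ := (Fintype.card k : ℝ)
  have hq2 : (2 : ℝ) ≤ q := by
    simp only [q]; exact_mod_cast (Fintype.one_lt_card : 1 < Fintype.card k)
  refine le_trans (proportion_mono (t := fun f => ∃ e ∈ Finset.Ioc r (d / 2),
    ∃ P ∈ (fixPts k e).filter (fun P => degPt k P = e), SingularAt P f) ?_) ?_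
  · rintro f - ⟨P, hr, hd, hs⟩
    exact ⟨degPt k P, Finset.mem_Ioc.mpr ⟨hr, hd⟩, P, Finset.mem_filter.mpr
      ⟨(mem_fixPts_iff_dvd (degPt_pos P).ne').mpr dvd_rfl, rfl⟩, hs⟩
  refine le_trans (proportion_exists_le d _ _) (le_trans (Finset.sum_le_sum fun e he => ?_)
    (sum_Ioc_pow_le (by positivity) ((inv_le_comm₀ (by positivity) (by norm_num)).mpr
      (by linarith)) r (d / 2)))
  obtain ⟨hre, hed⟩ := Finset.mem_Ioc.mp he
  refine le_trans (proportion_exists_le d _ _) ?_
  rw [Finset.sum_congr rfl fun P hP => (proportion_singularAt P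
    (by rw [(Finset.mem_filter.mp hP).2]; omega)).trans
      (by rw [(Finset.mem_filter.mp hP).2] :
        ((q ^ (3 * degPt k P))⁻¹ : ℝ) = (q ^ (3 * e))⁻¹),
    Finset.sum_const, nsmul_eq_mul]
  have hc : (((fixPts k e).filter fun P => degPt k P = e).card : ℝ) ≤ (q ^ e) ^ 2 := by
    have := (Finset.card_filter_le (fixPts k e) fun P => degPt k P = e).trans_eq
      (card_fixPts (by omega))
    simp only [q]
    exact_mod_cast this
  calc (((fixPts k e).filter fun P => degPt k P = e).card : ℝ) * (q ^ (3 * e))⁻¹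
      ≤ (q ^ e) ^ 2 * (q ^ (3 * e))⁻¹ := mul_le_mul_of_nonneg_right hc (by positivity)
    _ = q⁻¹ ^ e := by
        rw [inv_pow, ← pow_mul]
        field_simp
        ring

theorem tendsto_high (p : ℕ) (hp : 0 < p) {q : ℝ} (hq : 1 < q) :
    Tendsto (fun d : ℕ => ((d : ℝ) + 1) ^ 4 / q ^ (d / (3 * p))) atTop (𝓝 0) := by
  set c := 3 * p
  have hc : 0 < c := by omega
  have h := tendsto_pow_const_div_const_pow_of_one_lt 4 hq
  have h1 : Tendsto (fun d : ℕ => d / c + 1) atTop atTop :=
    (tendsto_add_atTop_nat 1).comp (Nat.tendsto_div_const_atTop hc.ne')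
  have h2 := ((h.comp h1).const_mul ((c : ℝ) ^ 4 * q))
  rw [mul_zero] at h2
  refine squeeze_zero (fun d => by positivity) (fun d => ?_) h2
  have hq0 : 0 < q := by linarith
  have hd : ((d : ℝ) + 1) ≤ c * (((d / c + 1 : ℕ)) : ℝ) := by
    exact_mod_cast (Nat.lt_mul_div_succ d hc : d < c * (d / c + 1))
  simp only [Function.comp_apply]
  rw [pow_succ q (d / c)]
  calc ((d : ℝ) + 1) ^ 4 / q ^ (d / c)
      ≤ ((c : ℝ) * (((d / c + 1 : ℕ)) : ℝ)) ^ 4 / q ^ (d / c) :=
        div_le_div_of_nonneg_right (pow_le_pow_left₀ (by positivity) hd 4) (by positivity)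
    _ = _ := by field_simp

/-- **Poonen's theorem in the plane.** -/
theorem tendsto_proportion_smooth :
    Tendsto (fun d => proportion d (fun f : MvPolynomial (Fin 2) k => ∀ P, ¬ SingularAt P f))
      atTop (𝓝 (1 - (Fintype.card k : ℝ)⁻¹)) := by
  obtain ⟨p, hp⟩ := CharP.exists k
  have hpp : p.Prime := CharP.char_is_prime k p
  haveI : Fact p.Prime := ⟨hpp⟩
  set q : ℝ := (Fintype.card k : ℝ)
  have hq : 1 < q := by simp only [q]; exact_mod_cast Fintype.one_lt_card
  rw [Metric.tendsto_atTop]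
  intro ε hε
  obtain ⟨r, hr1, hr2⟩ := ((Metric.tendsto_nhds.mp (tendsto_eulerProd (k := k)) (ε / 3)
    (by linarith)).and ((tendsto_pow_atTop_nhds_zero_of_lt_one (by positivity)
      (inv_lt_one_of_one_lt₀ hq)).eventually (gt_mem_nhds (by linarith : (0 : ℝ) < ε / 3)))).exists
  obtain ⟨D, hD⟩ := exists_proportion_smoothOn (repSet_inequivalent (k := k) (m := r !))
  obtain ⟨D', hD'⟩ := eventually_atTop.mp ((tendsto_high p hpp.pos hq).eventually
    (gt_mem_nhds (by linarith : (0 : ℝ) < ε / 3)))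
  refine ⟨max D (max D' 1), fun d hd => ?_⟩
  simp only [max_le_iff] at hd
  obtain ⟨hdD, hdD', hd1⟩ := hd
  have hlow := hD d hdD
  rw [show (fun f : MvPolynomial (Fin 2) k => ∀ P ∈ repSet k (r !), ¬ SingularAt P f) =
      fun f => ∀ P ∈ fixPts k (r !), ¬ SingularAt P f from
    funext fun f => propext (forall_repSet_iff r.factorial_ne_zero f)] at hlow
  have hup : proportion d (fun f : MvPolynomial (Fin 2) k => ∀ P, ¬ SingularAt P f) ≤
      eulerProd k (r !) :=
    (proportion_mono fun f _ h P _ => h P).trans_eq hlow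
  have hdown : eulerProd k (r !) ≤
      proportion d (fun f : MvPolynomial (Fin 2) k => ∀ P, ¬ SingularAt P f) +
        (q⁻¹ ^ r + ((d : ℝ) + 1) ^ 4 / q ^ (d / (3 * p))) := by
    refine le_trans hlow.ge (le_trans (proportion_mono (t := fun f =>
      (∀ P, ¬ SingularAt P f) ∨ (∃ P : Pt k, r < degPt k P ∧ degPt k P ≤ d / 2 ∧ SingularAt P f) ∨
        ∃ P : Pt k, d / (3 * p) ≤ degPt k P ∧ SingularAt P f) ?_) ?_)
    · intro f _ hf
      by_cases hall : ∀ P, ¬ SingularAt P f
      · exact Or.inl hall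
      obtain ⟨P, hP⟩ := not_forall_not.mp hall
      have hr : r < degPt k P := by
        by_contra! hle
        exact hf P ((mem_fixPts_iff_dvd r.factorial_ne_zero).mpr
          (Nat.dvd_factorial (degPt_pos P) hle)) hP
      rcases le_or_gt (degPt k P) (d / 2) with h | h
      · exact Or.inr (Or.inl ⟨P, hr, h, hP⟩)
      · refine Or.inr (Or.inr ⟨P, le_trans ?_ h.le, hP⟩)
        exact Nat.div_le_div_left (by have := hpp.pos; omega) (by norm_num)
    · refine le_trans (proportion_or_le _ _ _) (add_le_add le_rfl ?_)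
      exact le_trans (proportion_or_le _ _ _)
        (add_le_add (proportion_medium_le d r) (proportion_high_le p hd1))
  have h3 := hD' d hdD'
  rw [Real.dist_eq, abs_sub_lt_iff] at hr1 ⊢
  constructor <;> linarith

end FA.PlaneBertini
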