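import Fermat.Agent.PlaneBertini.Jets
import Fermat.Agent.FiniteKakeya.Basic

/-!
# Proportions of polynomials of degree at most `d`

The proportion with no singular point at finitely many points, no two conjugate, is exactly the
product of the local factors in every large degree, and that singular at a point of degree `e`
is `q^{-3e}` as soon as `d ≥ 2 e`.
-/

set_option autoImplicit false
set_option linter.style.openClassical false
set_option linter.style.haveILetI false
set_option linter.unusedSectionVars false

noncomputable section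

open scoped Classical

namespace FA.PlaneBertini

open MvPolynomial

variable {k : Type*} [Field k] [Fintype k]

variable (k) in
/-- The polynomials of total degree at most `d`. -/
abbrev Poly (d : ℕ) : Type _ := ↥(restrictTotalDegree (Fin 2) k d)

instance (d : ℕ) : Module.Finite k (Poly k d) :=
  FiniteDimensional.of_finrank_pos
    (by rw [FA.FiniteKakeya.finrank_totalDegree_le]; exact Nat.choose_pos (by omega))

instance (d : ℕ) : Finite (Poly k d) := Module.finite_of_finite k

/-- The proportion of the polynomials of degree at most `d` with a property. -/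
def proportion (d : ℕ) (s : MvPolynomial (Fin 2) k → Prop) : ℝ :=
  (Nat.card {f : Poly k d // s f.1} : ℝ) / Nat.card (Poly k d)

theorem card_poly_pos (d : ℕ) : (0 : ℝ) < Nat.card (Poly k d) := by exact_mod_cast Nat.card_pos

theorem proportion_nonneg (d : ℕ) (s : MvPolynomial (Fin 2) k → Prop) : 0 ≤ proportion d s :=
  div_nonneg (Nat.cast_nonneg _) (Nat.cast_nonneg _)

theorem proportion_mono {d : ℕ} {s t : MvPolynomial (Fin 2) k → Prop}
    (h : ∀ f, f.totalDegree ≤ d → s f → t f) : proportion d s ≤ proportion d t := by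
  refine div_le_div_of_nonneg_right ?_ (Nat.cast_nonneg _)
  exact_mod_cast Nat.card_le_card_of_injective
    (fun f : {f : Poly k d // s f.1} =>
      (⟨f.1, h _ ((mem_restrictTotalDegree _ _ _).mp f.1.2) f.2⟩ : {f : Poly k d // t f.1}))
    fun f g e => Subtype.ext (congrArg (fun z : {f : Poly k d // t f.1} => z.1) e)

theorem proportion_or_le (d : ℕ) (s t : MvPolynomial (Fin 2) k → Prop) :
    proportion d (fun f => s f ∨ t f) ≤ proportion d s + proportion d t := by
  haveI := Fintype.ofFinite (Poly k d)
  rw [proportion, proportion, proportion, ← add_div]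
  refine div_le_div_of_nonneg_right ?_ (Nat.cast_nonneg _)
  rw [Nat.card_eq_fintype_card, Nat.card_eq_fintype_card, Nat.card_eq_fintype_card]
  exact_mod_cast Fintype.card_subtype_or (fun f : Poly k d => s f.1) (fun f => t f.1)

theorem proportion_exists_le (d : ℕ) {ι : Type*} (S : Finset ι)
    (s : ι → MvPolynomial (Fin 2) k → Prop) :
    proportion d (fun f => ∃ i ∈ S, s i f) ≤ ∑ i ∈ S, proportion d (s i) := by
  induction S using Finset.induction_on with
  | empty => simp [proportion]
  | insert a S ha ih =>
    rw [Finset.sum_insert ha]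
    refine le_trans ?_ (le_trans (proportion_or_le d (s a) _) (add_le_add le_rfl ih))
    exact proportion_mono fun f _ ⟨i, hi, hf⟩ => (Finset.mem_insert.mp hi).elim
      (fun h => Or.inl (h ▸ hf)) fun h => Or.inr ⟨i, h, hf⟩

/-- **A property of the image under a linear surjection.** -/
theorem proportion_of_surjective {d : ℕ} {W : Type*} [AddCommGroup W] [Module k W] [Finite W]
    (φ : MvPolynomial (Fin 2) k →ₗ[k] W)
    (hφ : ∀ w, ∃ f : MvPolynomial (Fin 2) k, f.totalDegree ≤ d ∧ φ f = w) (p : W → Prop) :
    proportion d (fun f => p (φ f)) = (Nat.card {w // p w} : ℝ) / Nat.card W := by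
  choose s hsd hs using hφ
  let σ : W → Poly k d := fun w => ⟨s w, (mem_restrictTotalDegree _ _ _).mpr (hsd w)⟩
  let φ' : Poly k d →ₗ[k] W := φ ∘ₗ Submodule.subtype _
  have hσ : ∀ w, φ' (σ w) = w := hs
  let e : Poly k d ≃ W × LinearMap.ker φ' :=
    { toFun := fun f => (φ' f, ⟨f - σ (φ' f), by rw [LinearMap.mem_ker, map_sub, hσ, sub_self]⟩)
      invFun := fun x => σ x.1 + x.2.1
      left_inv := fun f => by simp
      right_inv := fun x => by
        have hx : φ' (σ x.1 + x.2.1) = x.1 := by
          rw [map_add, hσ, LinearMap.mem_ker.mp x.2.2, add_zero]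
        refine Prod.ext hx (Subtype.ext ?_)
        simp only [hx, add_sub_cancel_left] }
  have h1 : Nat.card {f : Poly k d // p (φ f.1)} =
      Nat.card {w // p w} * Nat.card (LinearMap.ker φ') := by
    rw [← Nat.card_prod]
    refine Nat.card_congr ((e.subtypeEquiv (q := fun x => p x.1) fun f => Iff.rfl).trans ?_)
    exact
      { toFun := fun x => (⟨x.1.1, x.2⟩, x.1.2)
        invFun := fun x => ⟨(x.1.1, x.2), x.1.2⟩
        left_inv := fun x => rfl
        right_inv := fun x => rfl }
  rw [proportion, h1, Nat.card_congr e, Nat.card_prod, Nat.cast_mul, Nat.cast_mul,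
    mul_div_mul_right]
  exact_mod_cast Nat.card_pos.ne'

theorem natCard_jetTarget (P : Pt k) :
    Nat.card (Fin 3 → valueAlg k P) = Fintype.card k ^ (3 * degPt k P) := by
  haveI := Fintype.ofFinite (valueAlg k P)
  rw [Nat.card_fun, Nat.card_fin, Nat.card_eq_fintype_card,
    Module.card_eq_pow_finrank (K := k), finrank_valueAlg, ← pow_mul, mul_comm]

/-- **Singular at one point.** -/
theorem proportion_singularAt (P : Pt k) {d : ℕ} (hd : 2 * degPt k P ≤ d) :
    proportion d (SingularAt P) = ((Fintype.card k : ℝ) ^ (3 * degPt k P))⁻¹ := by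
  have h := proportion_of_surjective (d := d) (jet k P)
    (fun w => (exists_jet_eq P w).imp fun f hf => ⟨hf.1.trans hd, hf.2⟩) (fun w => w = 0)
  simp only [jet_eq_zero_iff] at h
  rw [h, Nat.card_unique, natCard_jetTarget, Nat.cast_one, Nat.cast_pow, one_div]

/-- **No singular point among finitely many**, no two conjugate. -/
theorem exists_proportion_smoothOn {S : Finset (Pt k)}
    (hS : ∀ P ∈ S, ∀ Q ∈ S, Q ∈ orbitPt k P → Q = P) :
    ∃ D, ∀ d, D ≤ d → proportion d (fun f => ∀ P ∈ S, ¬ SingularAt P f) =
      ∏ P ∈ S, (1 - ((Fintype.card k : ℝ) ^ (3 * degPt k P))⁻¹) := by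
  obtain ⟨D, hD⟩ := exists_degree_jets hS
  refine ⟨D, fun d hd => ?_⟩
  have h := proportion_of_surjective (d := d) (LinearMap.pi fun P : S => jet k P.1)
    (fun w => (hD w).imp fun f hf => ⟨hf.1.trans hd, funext hf.2⟩) (fun w => ∀ P, w P ≠ 0)
  have hiff : ∀ f, (∀ P : S, LinearMap.pi (fun P : S => jet k P.1) f P ≠ 0) ↔
      ∀ P ∈ S, ¬ SingularAt P f := fun f => by
    simp [LinearMap.pi_apply, jet_eq_zero_iff]
  simp only [hiff] at h
  rw [h, Nat.card_congr (Equiv.subtypePiEquivPi (p := fun (P : S) w => w ≠ 0)), Nat.card_pi,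
    Nat.card_pi, Nat.cast_prod, Nat.cast_prod, ← Finset.prod_div_distrib,
    ← Finset.prod_coe_sort S]
  refine Finset.prod_congr rfl fun P _ => ?_
  haveI := Fintype.ofFinite (Fin 3 → valueAlg k P.1)
  have hq : (0 : ℝ) < (Fintype.card k : ℝ) := by exact_mod_cast Fintype.card_pos
  rw [Nat.card_eq_fintype_card, Fintype.card_subtype_compl, Fintype.card_subtype_eq,
    ← Nat.card_eq_fintype_card, natCard_jetTarget, Nat.cast_sub (Nat.one_le_pow _ _
      Fintype.card_pos), Nat.cast_pow, Nat.cast_one, sub_div, div_self (by positivity), one_div]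

end FA.PlaneBertini
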